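import Fermat.Prelude.Def_ModularCurve_HeckeOperator
import Fermat.Prelude.Thm_ModularCurve_coeffMap_qExpand
import Fermat.Agent.EichlerShimura.Series
import Fermat.Agent.Gal.Basic
import Fermat.Agent.Hecke.Conj
import Fermat.Agent.Mazur.Defs
import Fermat.Agent.Mono.BaseChange
import Fermat.Agent.X0.Points

/-!
# The swap of the two degeneracy maps `X₀(Nl) → X₀(N)`, `l ∤ N` prime

On `q`-expansions: a homomorphism `τ : F(Nl) → K((q))` with `τ (α x) = x(q^l)`, `τ (β x) = x(q)`.
-/

noncomputable section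

open UpperHalfPlane CongruenceSubgroup Function ModularCurve
open scoped MatrixGroups ModularForm Manifold

namespace Fermat.Agent.Mazur.Disc

open Fermat.Agent.MF (IsQFn IsFormFn lq scale affH)

variable {N : ℕ} [NeZero N] {l : ℕ} [hlp : Fact l.Prime]

theorem qParam_affH_one (τ : ℍ) :
    Periodic.qParam 1 (affH 1 l 0 τ : ℂ) = Periodic.qParam ((N * l : ℕ) : ℝ) (τ : ℂ) ^ N := by
  have hN : (N : ℂ) ≠ 0 := Nat.cast_ne_zero.mpr (NeZero.ne N)
  have hl : (l : ℂ) ≠ 0 := Nat.cast_ne_zero.mpr hlp.out.ne_zero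
  rw [Periodic.qParam, Periodic.qParam, ← Complex.exp_nat_mul]
  congr 1
  simp only [affH, Nat.cast_mul, Complex.ofReal_mul, Complex.ofReal_natCast]
  push_cast
  field_simp
  ring

theorem expansion_comp_affH {g : ℍ → ℂ} (hg : IsQFn g) {G : X0.wideAlgebra (N * l)} {c : ℂ}
    (hG : (G : ℍ → ℂ) = c • (g ∘ affH 1 l 0)) :
    Hecke.wexp (N * l) G = HahnSeries.C c * qExpand ℂ N (lq g) := by
  have hM : (0 : ℝ) < ((N * l : ℕ) : ℝ) := by exact_mod_cast NeZero.pos (N * l)
  set C : PowerSeries ℂ := PowerSeries.C c *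
    PowerSeries.expand N (NeZero.ne N) (qExpansion 1 g) with hC
  have hinj : Function.Injective (fun n : ℕ => N * n) :=
    fun x y h => Nat.eq_of_mul_eq_mul_left (NeZero.pos N) h
  have hsum : ∀ τ : ℍ,
      HasSum (fun m => PowerSeries.coeff m C • Periodic.qParam ((N * l : ℕ) : ℝ) (τ : ℂ) ^ m)
        ((G : ℍ → ℂ) τ) := by
    intro τ
    have h := (hasSum_qExpansion one_pos hg.periodic hg.mdiff hg.bdd (affH 1 l 0 τ)).mul_left c
    refine (hinj.hasSum_iff ?_).mp ?_
    · intro m hm
      have : ¬ N ∣ m := fun ⟨n, hn⟩ => hm ⟨n, hn.symm⟩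
      simp [hC, PowerSeries.coeff_expand_of_not_dvd _ _ _ this]
    · rw [hG]
      simp only [comp_def, hC, PowerSeries.coeff_C_mul, PowerSeries.coeff_expand_mul, smul_eq_mul,
        Pi.smul_apply] at h ⊢
      refine h.congr_fun fun n => ?_
      rw [qParam_affH_one (N := N), pow_mul]
      ring
  have hu : qExpansion ((N * l : ℕ) : ℝ) (G : ℍ → ℂ) = C := by
    refine PowerSeries.ext fun m => ?_
    have h1 := (hasFPowerSeriesOnBall_cuspFunction hM G.2.analyticAt hsum).hasFPowerSeriesAt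
    have h2 := (hasFPowerSeriesOnBall_cuspFunction hM G.2.analyticAt
      (hasSum_qExpansion hM G.2.periodic G.2.mdiff G.2.bdd)).hasFPowerSeriesAt
    simpa using (congr_arg (FormalMultilinearSeries.coeff · m)
      (h1.eq_formalMultilinearSeries h2)).symm
  show HahnSeries.ofPowerSeries ℤ ℂ (qExpansion ((N * l : ℕ) : ℝ) (G : ℍ → ℂ)) = _
  rw [hu, hC, map_mul, HahnSeries.ofPowerSeries_C, lq, EichlerShimura.ofPowerSeries_expand]

omit [NeZero N] in
theorem exists_hermite_swap (hlN : ¬ l ∣ N) :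
    ∃ γ σ : SL(2, ℤ), γ ∈ Gamma0 N ∧ σ ∈ Gamma0 N ∧ MF.IsHermite l γ σ 1 l 0 := by
  obtain ⟨x, y, hxy⟩ := (Nat.Coprime.isCoprime ((Nat.Prime.coprime_iff_not_dvd hlp.out).mpr hlN))
  refine ⟨⟨!![x, -y; (N : ℤ), (l : ℤ)], by
      rw [Matrix.det_fin_two_of]; linear_combination hxy⟩,
    ⟨!![x * l, -y; (N : ℤ), 1], by rw [Matrix.det_fin_two_of]; linear_combination hxy⟩,
    Gamma0_mem.mpr ?_, Gamma0_mem.mpr ?_, ?_⟩
  · simp
  · simp
  · constructor <;> simp <;> ring

theorem conjHom_swap {γ σ : SL(2, ℤ)} (hγ : γ ∈ Gamma0 N) (hσ : σ ∈ Gamma0 N)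
    (hH : MF.IsHermite l γ σ 1 l 0) {y : LaurentSeries ℂ} {x : Mono.FC (N * l)} {k : ℤ}
    {f g : ℍ → ℂ} (hf : IsFormFn (Gamma0 N) k f) (hg : IsFormFn (Gamma0 N) k g) (hg0 : g ≠ 0)
    (h : y * lq g = lq f) :
    ((x : LaurentSeries ℂ) = y →
      (X0.cuspExpansion (N * l)).conjHom γ x = qExpand ℂ N (qExpand ℂ l y)) ∧
    ((x : LaurentSeries ℂ) = qExpand ℂ l y →
      (X0.cuspExpansion (N * l)).conjHom γ x = qExpand ℂ N y) := by
  have hle : Gamma0 (N * l) ≤ Gamma0 N := MF.Gamma0_le_of_dvd (dvd_mul_right N l)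
  have hlg : lq g ≠ 0 := fun h0 => hg0 ((MF.lq_eq_zero_iff hg.isQFn0).mp h0)
  constructor
  · intro hx
    rw [(X0.cuspExpansion (N * l)).conjHom_eq γ x (hf.mono hle) (hg.mono hle) hg0 (by rw [hx, h])]
    have key : ∀ {F : ℍ → ℂ} (hF : IsFormFn (Gamma0 N) k F),
        (X0.cuspExpansion (N * l)).ls (X0.wslash (hF.mono hle) γ) =
          qExpand ℂ N (qExpand ℂ l (lq F)) := fun {F} hF => by
      show Hecke.wexp (N * l) (X0.wslash (hF.mono hle) γ) = _
      rw [Hecke.wexp_of_isQFn _ (by simpa [hF.slash_eq γ hγ] using hF.isQFn0), qExpand_qExpand]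
      simp [hF.slash_eq γ hγ]
    rw [key hf, key hg, ← h, map_mul, map_mul, mul_div_assoc, div_self, mul_one]
    exact (map_ne_zero _).mpr ((map_ne_zero _).mpr hlg)
  · intro hx
    have hg0' : g ∘ scale l ≠ 0 := fun h0 => hlg <| by
      have := MF.lq_comp_scale hg.isQFn0 l
      rw [h0, MF.lq_zero, eq_comm, map_eq_zero_iff _ (qExpand_injective l)] at this
      exact this
    rw [(X0.cuspExpansion (N * l)).conjHom_eq γ x (hf.comp_scale l) (hg.comp_scale l) hg0'
      (by rw [hx, MF.lq_comp_scale hg.isQFn0, MF.lq_comp_scale hf.isQFn0, ← map_mul, h])]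
    have key : ∀ {F : ℍ → ℂ} (hF : IsFormFn (Gamma0 N) k F),
        (X0.cuspExpansion (N * l)).ls (X0.wslash (hF.comp_scale l) γ) =
          HahnSeries.C ((l : ℂ) ^ (-k)) * qExpand ℂ N (lq F) := fun {F} hF => by
      refine expansion_comp_affH hF.isQFn0 ?_
      rw [X0.coe_wslash, MF.slash_scale hH, hF.slash_eq σ hσ]
    rw [key hf, key hg, ← h, map_mul,
      mul_div_mul_left _ _ (HahnSeries.C_ne_zero (zpow_ne_zero _
        (Nat.cast_ne_zero.mpr hlp.out.ne_zero))), mul_div_assoc, div_self, mul_one]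
    exact (map_ne_zero _).mpr hlg

section Descend

variable (K : Type*) [Field K] [Algebra ℚ K] (e : K →+* ℂ)

theorem coeffMap_mem_FC {M : ℕ} {x : LaurentSeries K}
    (hx : x ∈ laurentBaseChange K (modularFunctionFieldFull M)) :
    coeffMap e x ∈ Mono.FC M := by
  rw [mem_laurentBaseChange_iff] at hx
  induction hx using Subfield.closure_induction with
  | mem y hy =>
    rcases hy with ⟨a, rfl⟩ | ⟨z, hz, rfl⟩
    · rw [algebraMap_laurentSeries_eq_single, coeffMap_single, ← algebraMap_laurentSeries_eq_single]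
      exact (Mono.FC M).algebraMap_mem _
    · rw [coeffEmb, coeffMap_coeffMap, coeffMap_congr (Subsingleton.elim _ (algebraMap ℚ ℂ))]
      exact coeffEmb_mem_laurentBaseChange ℂ hz
  | one => simp
  | add x y _ _ hx hy => simpa using add_mem hx hy
  | neg x _ hx => simpa using neg_mem hx
  | inv x _ hx => simpa using inv_mem hx
  | mul x y _ _ hx hy => simpa using mul_mem hx hy

/-- The complexification of functions. -/
def toFC (M : ℕ) [NeZero M] :
    laurentBaseChange K (modularFunctionFieldFull M) →+* Mono.FC M :=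
  ((coeffMap e).comp (laurentBaseChange K (modularFunctionFieldFull M)).val.toRingHom).codRestrict
    (Mono.FC M) fun x => coeffMap_mem_FC K e x.2

@[simp] theorem coe_toFC (M : ℕ) [NeZero M] (x : laurentBaseChange K (modularFunctionFieldFull M)) :
    (toFC K e M x : LaurentSeries ℂ) = coeffMap e (x : LaurentSeries K) := rfl

theorem mem_of_expansions {M : ℕ}
    {P : Subfield (laurentBaseChange K (modularFunctionFieldFull M))}
    (hC : ∀ a : K, algebraMap K _ a ∈ P)
    (hj : ∀ (d : ℕ) [NeZero d] (hd : d ∣ M),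
      (⟨coeffEmb K (qExpand ℚ d jq), coeffEmb_mem_laurentBaseChange K (jqd_mem_full M hd)⟩ :
        laurentBaseChange K (modularFunctionFieldFull M)) ∈ P)
    (x : laurentBaseChange K (modularFunctionFieldFull M)) : x ∈ P := by
  let P' : Subfield (LaurentSeries K) :=
    P.map (laurentBaseChange K (modularFunctionFieldFull M)).val.toRingHom
  suffices h : (x : LaurentSeries K) ∈ P' by
    obtain ⟨y, hy, hyx⟩ := Subfield.mem_map.mp h
    exact Subtype.ext (a1 := y) (a2 := x) hyx ▸ hy
  refine (Subfield.closure_le (t := P')).mpr ?_ (mem_laurentBaseChange_iff.mp x.2)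
  rintro _ (⟨a, rfl⟩ | ⟨z, hz, rfl⟩)
  · exact Subfield.mem_map.mpr ⟨_, hC a, rfl⟩
  · show coeffEmb K z ∈ P'
    induction hz using IntermediateField.adjoin_induction with
    | mem z hz =>
      obtain ⟨d, hd, hdvd, rfl⟩ := hz
      exact Subfield.mem_map.mpr ⟨_, hj d hdvd, rfl⟩
    | algebraMap q =>
      refine Subfield.mem_map.mpr ⟨_, hC (algebraMap ℚ K q), ?_⟩
      show algebraMap K (LaurentSeries K) _ = coeffEmb K _
      rw [algebraMap_apply_eq_single, coeffEmb, coeffMap_single, algebraMap_laurentSeries_eq_single]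
    | add a b _ _ iha ihb => rw [map_add]; exact add_mem iha ihb
    | inv a _ iha => rw [map_inv₀]; exact inv_mem iha
    | mul a b _ _ iha ihb => rw [map_mul]; exact mul_mem iha ihb

include e in
theorem exists_swapHom (hlN : ¬ l ∣ N) :
    ∃ τ : laurentBaseChange K (modularFunctionFieldFull (N * l)) →+* LaurentSeries K,
      (∀ c : K, τ (algebraMap K _ c) = HahnSeries.C c) ∧
      (∀ x, τ (heckeAlphaBar K N l x) = qExpand K l (x : LaurentSeries K)) ∧
      (∀ x, τ (heckeBetaBar K N l x) = (x : LaurentSeries K)) := by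
  obtain ⟨γ, σ, hγ, hσ, hH⟩ := exists_hermite_swap (N := N) hlN
  let c : laurentBaseChange K (modularFunctionFieldFull (N * l)) →+* LaurentSeries ℂ :=
    ((X0.cuspExpansion (N * l)).conjHom γ).comp (toFC K e (N * l))
  let S : LaurentSeries K →+* LaurentSeries ℂ := (qExpand ℂ N).comp (coeffMap e)
  have hS : Injective S := (qExpand_injective N).comp
    (EichlerShimura.coeffMap_injective e.injective)
  have hαβ : ∀ y : laurentBaseChange K (modularFunctionFieldFull N),
      c (heckeAlphaBar K N l y) = S (qExpand K l (y : LaurentSeries K)) ∧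
        c (heckeBetaBar K N l y) = S (y : LaurentSeries K) := by
    intro y
    obtain ⟨k, f, g, hf, hg, hg0, h⟩ := (Mono.mem_FC_iff N).mp (coeffMap_mem_FC K e y.2)
    constructor
    · show _ = qExpand ℂ N (coeffMap e _)
      rw [coeffMap_qExpand]
      exact (conjHom_swap hγ hσ hH (x := toFC K e (N * l) (heckeAlphaBar K N l y))
        hf hg hg0 h).1 (by simp)
    · exact (conjHom_swap hγ hσ hH (x := toFC K e (N * l) (heckeBetaBar K N l y))
        hf hg hg0 h).2 (by simp [coeffMap_qExpand])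
  have hC : ∀ a : K, c (algebraMap K _ a) = S (HahnSeries.C a) := by
    intro a
    have he : toFC K e (N * l) (algebraMap K _ a) = algebraMap ℂ (Mono.FC (N * l)) (e a) :=
      Subtype.ext <| by
        show coeffMap e (algebraMap K (LaurentSeries K) a) = algebraMap ℂ (LaurentSeries ℂ) (e a)
        rw [algebraMap_laurentSeries_eq_single, coeffMap_single,
          algebraMap_laurentSeries_eq_single]
    show _ = qExpand ℂ N (coeffMap e _)
    rw [RingHom.comp_apply, he, X0.Expansion.conjHom_algebraMap]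
    simp [HahnSeries.C_apply, coeffMap_single, qExpand_single]
  have hrange : ∀ x, c x ∈ S.fieldRange := by
    refine fun x => mem_of_expansions K (P := S.fieldRange.comap c) (fun a => ⟨_, (hC a).symm⟩)
      (fun d _ hdvd => ?_) x
    show c _ ∈ S.fieldRange
    by_cases hld : l ∣ d
    · obtain ⟨d', rfl⟩ := hld
      have : NeZero d' := ⟨fun h => NeZero.ne (l * d') (by rw [h, mul_zero])⟩
      have hd' : d' ∣ N := Nat.dvd_of_mul_dvd_mul_left hlp.out.pos (by rwa [mul_comm N l] at hdvd)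
      let y : laurentBaseChange K (modularFunctionFieldFull N) :=
        ⟨coeffEmb K (qExpand ℚ d' jq), coeffEmb_mem_laurentBaseChange K (jqd_mem_full N hd')⟩
      refine ⟨(y : LaurentSeries K), (hαβ y).2.symm.trans (congrArg c (Subtype.ext ?_))⟩
      show qExpand K l (coeffEmb K (qExpand ℚ d' jq)) = coeffEmb K (qExpand ℚ (l * d') jq)
      rw [coeffEmb, ← qExpand_qExpand, coeffMap_qExpand, coeffMap_qExpand, coeffMap_qExpand]
    · have hd' : d ∣ N := Nat.Coprime.dvd_of_dvd_mul_right
        (Nat.coprime_comm.mp ((Nat.Prime.coprime_iff_not_dvd hlp.out).mpr hld)) hdvd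
      let y : laurentBaseChange K (modularFunctionFieldFull N) :=
        ⟨coeffEmb K (qExpand ℚ d jq), coeffEmb_mem_laurentBaseChange K (jqd_mem_full N hd')⟩
      exact ⟨qExpand K l (y : LaurentSeries K),
        (hαβ y).1.symm.trans (congrArg c (Subtype.ext rfl))⟩
  choose t ht using fun x => (RingHom.mem_fieldRange.mp (hrange x) : ∃ y, S y = c x)
  refine ⟨{ toFun := t
            map_one' := hS (by rw [ht, map_one, map_one])
            map_zero' := hS (by rw [ht, map_zero, map_zero])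
            map_add' := fun x y => hS (by rw [ht, map_add, map_add, ht, ht])
            map_mul' := fun x y => hS (by rw [ht, map_mul, map_mul, ht, ht]) },
    fun a => hS ((ht _).trans (hC a)), fun y => hS ((ht _).trans (hαβ y).1),
    fun y => hS ((ht _).trans (hαβ y).2)⟩

end Descend

/-- The Fricke involution at prime level, on `q`-expansions. -/
theorem exists_frickeHom (p : ℕ) [Fact p.Prime] :
    ∃ τ : modularFunctionFieldBar p →+* LaurentSeries (AlgebraicClosure ℚ),
      (∀ a, τ (algebraMap (AlgebraicClosure ℚ) _ a) = HahnSeries.C a) ∧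
      τ (jBar p) = qExpand (AlgebraicClosure ℚ) p (coeffEmb (AlgebraicClosure ℚ) jq) ∧
      τ (jNBar p) = coeffEmb (AlgebraicClosure ℚ) jq := by
  suffices h : ∀ (M : ℕ) [NeZero M], M = 1 * p →
      ∃ τ : modularFunctionFieldBar M →+* LaurentSeries (AlgebraicClosure ℚ),
        (∀ a, τ (algebraMap (AlgebraicClosure ℚ) _ a) = HahnSeries.C a) ∧
        (∀ x : modularFunctionFieldBar M,
          (x : LaurentSeries (AlgebraicClosure ℚ)) = coeffEmb (AlgebraicClosure ℚ) jq →
            τ x = qExpand (AlgebraicClosure ℚ) p (coeffEmb (AlgebraicClosure ℚ) jq)) ∧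
        (∀ x : modularFunctionFieldBar M, (x : LaurentSeries (AlgebraicClosure ℚ)) =
          qExpand (AlgebraicClosure ℚ) p (coeffEmb (AlgebraicClosure ℚ) jq) →
            τ x = coeffEmb (AlgebraicClosure ℚ) jq) by
    obtain ⟨τ, hC, h1, h2⟩ := h p (one_mul p).symm
    refine ⟨τ, hC, h1 _ rfl, h2 _ ?_⟩
    show coeffEmb _ (qExpand ℚ p jq) = _
    rw [coeffEmb, coeffMap_qExpand]
  rintro M _ rfl
  obtain ⟨τ, hC, hα, hβ⟩ := exists_swapHom (N := 1) (l := p) (AlgebraicClosure ℚ)
    (IsAlgClosed.lift : AlgebraicClosure ℚ →ₐ[ℚ] ℂ).toRingHom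
    (fun h => (Fact.out : p.Prime).ne_one (Nat.dvd_one.mp h))
  refine ⟨τ, hC, fun x hx => ?_, fun x hx => ?_⟩
  · rw [show x = heckeAlphaBar (AlgebraicClosure ℚ) 1 p (jBar 1) from
        Subtype.ext (by simpa [jBar] using hx), hα]
    rfl
  · rw [show x = heckeBetaBar (AlgebraicClosure ℚ) 1 p (jBar 1) from
        Subtype.ext (by simpa [jBar] using hx), hβ]
    rfl

end Fermat.Agent.Mazur.Disc
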