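import Fermat.Prelude.Def_ModularCurve_ModularUnit
import Fermat.Agent.Flat.Descent
import Fermat.Agent.Mazur.Disc.Swap
import Fermat.Agent.Mono.PlaceData
import Fermat.Agent.Red.ChartFinite

/-!
# The unit `Δ(τ)/Δ(pτ)` of `X₀(p)`

It lies in the function field of every level divisible by `p`, it is integral with its inverse over
the polynomials in `j`, and the Fricke homomorphism sends it to `p¹²` times its inverse.
-/

noncomputable section

open UpperHalfPlane CongruenceSubgroup Function ModularCurve AlgebraicCurve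
open scoped MatrixGroups ModularForm Manifold

namespace Fermat.Agent.Mazur.Disc

open Fermat.Agent.MF (IsQFn IsFormFn lq deltaFn denN scale affH)

local notation "Qbar" => AlgebraicClosure ℚ

section Series

variable (p : ℕ) [hp : NeZero p]

/-- `∏ (1 - q^n)^24 / (1 - q^(pn))^24`. -/
def unitPart : PowerSeries ℤ :=
  dedekindEtaUnit * PowerSeries.expand p hp.out dedekindEtaUnitInv

theorem constantCoeff_unitPart : (unitPart p).constantCoeff = 1 := by
  have h := congrArg PowerSeries.constantCoeff dedekindEtaUnit_mul_inv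
  rw [map_mul, constantCoeff_dedekindEtaUnit, one_mul, map_one] at h
  rw [unitPart, map_mul, constantCoeff_dedekindEtaUnit, one_mul, PowerSeries.constantCoeff_expand,
    h]

theorem modularUnitSeries_eq :
    modularUnitSeries p = HahnSeries.single (1 - (p : ℤ)) (1 : ℚ) *
      HahnSeries.ofPowerSeries ℤ ℚ ((unitPart p).map (Int.castRingHom ℚ)) := by
  have hE : unitPart p * PowerSeries.expand p hp.out dedekindEtaUnit = dedekindEtaUnit := by
    rw [unitPart, mul_assoc, ← map_mul, mul_comm dedekindEtaUnitInv, dedekindEtaUnit_mul_inv]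
    simp
  refine mul_right_cancel₀ (deltaSeriesN_ne_zero p) ?_
  rw [modularUnitSeries_mul_deltaSeriesN, deltaSeriesN, deltaSeries, map_mul, qExpand_single,
    ← EichlerShimura.ofPowerSeries_expand, mul_mul_mul_comm, HahnSeries.single_mul_single,
      ← map_mul,
    dedekindEtaUnitQ, ← PowerSeries.map_expand, ← map_mul, hE]
  simp

theorem lq_delta_eq : lq deltaFn = coeffEmb ℂ deltaSeries := by
  rw [lq, MF.qExpansion_delta, map_mul, HahnSeries.ofPowerSeries_X, deltaSeries, coeffEmb, map_mul,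
    coeffMap_single, coeffMap_ofPowerSeries, dedekindEtaUnitQ]
  simp
  congr 1

theorem lq_denN_eq : lq (denN p) = coeffEmb ℂ (deltaSeriesN p) := by
  rw [denN, MF.lq_comp_scale MF.isFormFn_delta.isQFnTop, lq_delta_eq, deltaSeriesN, coeffEmb,
    coeffMap_qExpand]

theorem coeffEmb_unit_mul : coeffEmb ℂ (modularUnitSeries p) * lq (denN p) = lq deltaFn := by
  rw [lq_denN_eq, lq_delta_eq, ← map_mul, modularUnitSeries_mul_deltaSeriesN]

theorem modularUnitSeries_mem_full {N : ℕ} [NeZero N] (h : p ∣ N) :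
    modularUnitSeries p ∈ modularFunctionFieldFull N := by
  refine full_degeneracy_le h ?_
  rw [MF.modularFunctionFieldFull_eq, ← modularFunctionFieldC_rat]
  refine MF.mem_adjoin_of_coeffMap_mem (K := ℂ) ?_
  rw [MF.coeffMap_image_generators]
  exact (MF.mem_modularFunctionFieldC_iff p).mpr
    ⟨12, deltaFn, denN p, MF.isFormFn_delta.mono le_top, MF.isFormFn_denN p, MF.denN_ne_zero' p,
      coeffEmb_unit_mul p⟩

/-- The unit in the complex function field. -/
def unitC : Mono.FC p :=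
  ⟨coeffEmb ℂ (modularUnitSeries p),
    coeffEmb_mem_laurentBaseChange ℂ (modularUnitSeries_mem_full p dvd_rfl)⟩

theorem isRep_unitC : Mono.IsRep p (unitC p) 12 deltaFn (denN p) :=
  ⟨MF.isFormFn_delta.mono le_top, MF.isFormFn_denN p, MF.denN_ne_zero' p, coeffEmb_unit_mul p⟩

theorem unitC_ne_zero : unitC p ≠ 0 := fun h =>
  modularUnitSeries_ne_zero p <|
    (coeffEmb ℂ).injective (by rw [map_zero]; exact congrArg Subtype.val h)

theorem ord_unitC (v : Place ℂ (Mono.FC p)) (h : 0 ≤ v.ord (X0.jC p)) :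
    v.ord (unitC p) = 0 := by
  obtain ⟨z, c, hc, hv, -⟩ := Mono.covered_of_ord_nonneg v h
  have hz : ∀ {f : ℍ → ℂ}, MDiff f → f z ≠ 0 → Mono.HasPtOrd f z 0 := fun hf h0 => by
    show analyticOrderAt _ _ = ((0 : ℕ) : ℕ∞)
    rw [Nat.cast_zero, (Mono.analyticAt_coe hf z).analyticOrderAt_eq_zero]
    simpa using h0
  have := hv _ _ _ _ 0 0 (isRep_unitC p) (unitC_ne_zero p)
    (hz MF.isFormFn_delta.mdiff (MF.deltaFn_ne_zero z))
    (hz (MF.isFormFn_denN p).mdiff (MF.denN_ne_zero p z))
  simpa [hc.ne'] using this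

/-- A function without pole where `j` is finite is integral over `ℂ[j]`. -/
theorem isIntegral_complex {x : Mono.FC p}
    (hx : ∀ v : Place ℂ (Mono.FC p), 0 ≤ v.ord (X0.jC p) → 0 ≤ v.ord x) :
    IsIntegral (Algebra.adjoin ℂ {jqModC ℂ}) (x : LaurentSeries ℂ) := by
  have hint : IsIntegral (Algebra.adjoin ℂ {X0.jC p}) x :=
    Red.isIntegral_adjoin_of_ord_nonneg hx
  have hmap : ∀ a : Algebra.adjoin ℂ {X0.jC p},
      ((a : Mono.FC p) : LaurentSeries ℂ) ∈ Algebra.adjoin ℂ {jqModC ℂ} := by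
    intro a
    have : (Mono.FC p).val (a : Mono.FC p) ∈
        (Algebra.adjoin ℂ {X0.jC p}).map (Mono.FC p).val := ⟨_, a.2, rfl⟩
    rwa [AlgHom.map_adjoin, Set.image_singleton] at this
  exact hint.map_of_comp_eq
    (((Mono.FC p).val.toRingHom.comp (Algebra.adjoin ℂ {X0.jC p}).val.toRingHom).codRestrict
      (Algebra.adjoin ℂ {jqModC ℂ}).toSubring hmap)
    (Mono.FC p).val.toRingHom (by ext; rfl)

/-- The unit is integral over `ℚ[j]`. -/
theorem exists_relation_unit :
    ∃ P : Polynomial (Polynomial ℚ), P.Monic ∧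
      P.eval₂ (Polynomial.aeval (jqModC ℚ)).toRingHom (modularUnitSeries p) = 0 := by
  refine Flat.Desc.exists_relation (L := ℂ) ?_
  exact isIntegral_complex p (x := unitC p) fun v hv => by rw [ord_unitC p v hv]

/-- So is its inverse. -/
theorem exists_relation_unit_inv :
    ∃ P : Polynomial (Polynomial ℚ), P.Monic ∧
      P.eval₂ (Polynomial.aeval (jqModC ℚ)).toRingHom (modularUnitSeries p)⁻¹ = 0 := by
  refine Flat.Desc.exists_relation (L := ℂ) ?_
  have h := isIntegral_complex p (x := (unitC p)⁻¹) fun v hv => by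
    rw [Place.ord_inv, ord_unitC p v hv, neg_zero]
  have e : (((unitC p)⁻¹ : Mono.FC p) : LaurentSeries ℂ) =
      coeffMap (algebraMap ℚ ℂ) (modularUnitSeries p)⁻¹ := by
    rw [map_inv₀]; rfl
  rwa [e] at h

end Series

/-- A relation over `ℚ[j]` makes a series integral over `K[j]` in every subfield containing it. -/
theorem isIntegral_of_relation {K : Type*} [Field K] [Algebra ℚ K]
    {F : IntermediateField K (LaurentSeries K)} (j u : F)
    (hj : (j : LaurentSeries K) = jqModC K) {Y : LaurentSeries ℚ}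
    (hu : (u : LaurentSeries K) = coeffEmb K Y)
    (h : ∃ P : Polynomial (Polynomial ℚ), P.Monic ∧
      P.eval₂ (Polynomial.aeval (jqModC ℚ)).toRingHom Y = 0) :
    IsIntegral (Algebra.adjoin K {j}) u := by
  obtain ⟨P, hP, hroot⟩ := h
  set j' : Algebra.adjoin K {j} := ⟨j, Algebra.subset_adjoin rfl⟩
  let φ : Polynomial ℚ →+* Algebra.adjoin K {j} :=
    Polynomial.eval₂RingHom ((algebraMap K _).comp (algebraMap ℚ K)) j'
  refine ⟨P.map φ, hP.map _, ?_⟩
  rw [Polynomial.eval₂_map]
  apply Subtype.val_injective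
  show F.val.toRingHom _ = _
  rw [Polynomial.hom_eval₂, show F.val.toRingHom u = coeffEmb K Y from hu]
  have hc : F.val.toRingHom.comp ((algebraMap (Algebra.adjoin K {j}) F).comp φ) =
      (coeffEmb K).comp (Polynomial.aeval (jqModC ℚ)).toRingHom := by
    refine Polynomial.ringHom_ext (fun a => ?_) ?_
    · simp [φ, coeffEmb]
    · simp [φ, j', coeffEmb, hj, coeffMap_jqModC]
  rw [hc, ← Polynomial.hom_eval₂, hroot, map_zero]
  rfl

section Fricke

variable {p : ℕ} [hp : Fact p.Prime]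

omit hp in
theorem isHermite_S : MF.IsHermite p ModularGroup.S ModularGroup.S 1 p 0 :=
  ⟨one_mul p, by simp [ModularGroup.coe_S], by simp [ModularGroup.coe_S],
    by simp [ModularGroup.coe_S], by simp [ModularGroup.coe_S]⟩

theorem expansion_affH_level {g : ℍ → ℂ} (hg : IsQFn g) {G : X0.wideAlgebra p} {c : ℂ}
    (hG : (G : ℍ → ℂ) = c • (g ∘ affH 1 p 0)) :
    Hecke.wexp p G = HahnSeries.C c * lq g := by
  suffices h : ∀ (M : ℕ) [NeZero M], M = 1 * p → ∀ G : X0.wideAlgebra M,
      (G : ℍ → ℂ) = c • (g ∘ affH 1 p 0) → Hecke.wexp M G = HahnSeries.C c * lq g from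
    h p (one_mul p).symm G hG
  rintro M _ rfl G hG
  rw [expansion_comp_affH (N := 1) hg hG, qExpand_one_apply]

theorem wexp_wslash_top {k : ℤ} {f : ℍ → ℂ} (hf : IsFormFn ⊤ k f) (γ : SL(2, ℤ))
    (hf' : IsFormFn (Gamma0 p) k f) :
    Hecke.wexp p (X0.wslash hf' γ) = qExpand ℂ p (lq f) := by
  have h : f ∣[k] γ = f := hf.slash_eq γ trivial
  rw [Hecke.wexp_of_isQFn _ (by simpa [h] using hf.isQFnTop)]
  simp [h]

theorem wexp_wslash_scale {k : ℤ} {f : ℍ → ℂ} (hf : IsFormFn ⊤ k f)
    (hf' : IsFormFn (Gamma0 p) k (f ∘ scale p)) :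
    Hecke.wexp p (X0.wslash hf' ModularGroup.S) = HahnSeries.C ((p : ℂ) ^ (-k)) * lq f :=
  expansion_affH_level hf.isQFnTop (by
    rw [X0.coe_wslash, MF.slash_scale isHermite_S, hf.slash_eq _ trivial])

/-- The Fricke conjugate of an element, over `ℂ`. -/
def frickeC : modularFunctionFieldBar p →+* LaurentSeries ℂ :=
  ((X0.cuspExpansion p).conjHom ModularGroup.S).comp (Mono.toFC p)

theorem frickeC_eq {x : modularFunctionFieldBar p} {k : ℤ} {f g : ℍ → ℂ}
    (hf : IsFormFn (Gamma0 p) k f) (hg : IsFormFn (Gamma0 p) k g) (hg0 : g ≠ 0)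
    (h : coeffMap (complexEmbedding : Qbar →+* ℂ) (x : LaurentSeries Qbar) * lq g = lq f) :
    frickeC x = Hecke.wexp p (X0.wslash hf ModularGroup.S) /
      Hecke.wexp p (X0.wslash hg ModularGroup.S) :=
  (X0.cuspExpansion p).conjHom_eq _ (Mono.toFC p x) hf hg hg0 h

theorem coeffMap_embedding_coeffEmb (f : Qbar →+* ℂ) (x : LaurentSeries ℚ) :
    coeffMap f (coeffEmb Qbar x) = coeffEmb ℂ x := by
  rw [coeffEmb, coeffMap_coeffMap, coeffEmb]
  exact congrArg (fun φ => coeffMap φ x) (Subsingleton.elim _ _)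

variable (τ : modularFunctionFieldBar p →+* LaurentSeries Qbar)
  (hC : ∀ a, τ (algebraMap Qbar _ a) = HahnSeries.C a)
  (hj : τ (jBar p) = qExpand Qbar p (coeffEmb Qbar jq))
  (hjN : τ (jNBar p) = coeffEmb Qbar jq)

include hC hj hjN

theorem coeffMap_fricke (x : modularFunctionFieldBar p) :
    coeffMap (complexEmbedding : Qbar →+* ℂ) (τ x) = frickeC x := by
  set e : Qbar →+* ℂ := (complexEmbedding : Qbar →+* ℂ)
  have h3 : IsFormFn ⊤ 12 (MF.E4fn ^ 3) := (MF.isFormFn_E4.pow 3).cast (by norm_num)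
  have hd := MF.isFormFn_delta
  have hlq : lq deltaFn ≠ 0 := MF.lq_delta_ne_zero
  have hcpow : HahnSeries.C ((p : ℂ) ^ (-(12 : ℤ))) ≠ (0 : LaurentSeries ℂ) :=
    HahnSeries.C_ne_zero (zpow_ne_zero _ (Nat.cast_ne_zero.mpr hp.out.ne_zero))
  have hJ : coeffMap e (coeffEmb Qbar jq) = jqModC ℂ := by
    rw [coeffMap_embedding_coeffEmb, Mono.coeffEmb_jq]
  refine mem_of_expansions Qbar (P := RingHom.eqLocusField ((coeffMap e).comp τ) frickeC)
    (fun a => ?_) (fun d _ hdvd => ?_) x
  · show coeffMap e (τ _) = (X0.cuspExpansion p).conjHom _ (Mono.toFC p _)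
    have he : Mono.toFC p (algebraMap Qbar _ a) = algebraMap ℂ (Mono.FC p) (e a) :=
      Subtype.ext <| by
        show coeffMap e (algebraMap Qbar (LaurentSeries Qbar) a) =
          algebraMap ℂ (LaurentSeries ℂ) (e a)
        rw [algebraMap_laurentSeries_eq_single, coeffMap_single,
          algebraMap_laurentSeries_eq_single]
    rw [hC, he, X0.Expansion.conjHom_algebraMap, HahnSeries.C_apply, coeffMap_single,
      HahnSeries.C_apply]
  · show coeffMap e (τ _) = frickeC _
    rcases (Nat.dvd_prime hp.out).mp hdvd with rfl | rfl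
    · rw [show (⟨coeffEmb Qbar (qExpand ℚ 1 jq), _⟩ : modularFunctionFieldBar p) = jBar p from
        Subtype.ext (by simp [jBar, qExpand_one_apply]), hj, coeffMap_qExpand, hJ]
      rw [frickeC_eq (h3.mono le_top) (hd.mono le_top) MF.deltaFn_ne_zero' (by
        show coeffMap e (coeffEmb Qbar jq) * _ = _
        rw [hJ, MF.jqModC_mul_lq_delta, MF.lq_pow MF.isFormFn_E4.isQFnTop]),
        wexp_wslash_top h3, wexp_wslash_top hd, ← map_div₀,
        MF.lq_pow MF.isFormFn_E4.isQFnTop, ← MF.jqModC_mul_lq_delta, mul_div_cancel_right₀ _ hlq]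
    · rw [show (⟨coeffEmb Qbar (qExpand ℚ d jq), _⟩ : modularFunctionFieldBar d) = jNBar d from
        Subtype.ext rfl, hjN, hJ]
      rw [frickeC_eq (h3.comp_scale_top d) (hd.comp_scale_top d) (MF.denN_ne_zero' d) (by
        show coeffMap e (coeffEmb Qbar (qExpand ℚ d jq)) * lq (denN d) = _
        rw [coeffMap_embedding_coeffEmb, coeffEmb, coeffMap_qExpand, ← coeffEmb, Mono.coeffEmb_jq,
          denN, MF.lq_comp_scale hd.isQFnTop, ← map_mul, MF.jqModC_mul_lq_delta,
          MF.lq_comp_scale h3.isQFnTop, MF.lq_pow MF.isFormFn_E4.isQFnTop]),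
        wexp_wslash_scale h3, wexp_wslash_scale hd, mul_div_mul_left _ _ hcpow,
        MF.lq_pow MF.isFormFn_E4.isQFnTop, ← MF.jqModC_mul_lq_delta, mul_div_cancel_right₀ _ hlq]

theorem fricke_mul_unit (u : modularFunctionFieldBar p)
    (hu : (u : LaurentSeries Qbar) = coeffEmb Qbar (modularUnitSeries p)) :
    τ u * (u : LaurentSeries Qbar) = HahnSeries.C ((p : Qbar) ^ 12) := by
  set e : Qbar →+* ℂ := (complexEmbedding : Qbar →+* ℂ)
  apply EichlerShimura.coeffMap_injective e.injective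
  rw [map_mul, coeffMap_fricke τ hC hj hjN u, hu, coeffMap_embedding_coeffEmb,
    frickeC_eq (MF.isFormFn_delta.mono le_top) (MF.isFormFn_delta.comp_scale_top p)
      (MF.denN_ne_zero' p) (by
        show coeffMap e (u : LaurentSeries Qbar) * lq (denN p) = _
        rw [hu, coeffMap_embedding_coeffEmb, coeffEmb_unit_mul]),
    wexp_wslash_top MF.isFormFn_delta, wexp_wslash_scale MF.isFormFn_delta]
  have h0 : qExpand ℂ p (lq deltaFn) = lq (denN p) := by
    rw [denN, MF.lq_comp_scale MF.isFormFn_delta.isQFnTop]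
  have hc : coeffMap e (HahnSeries.C ((p : Qbar) ^ 12)) = HahnSeries.C ((p : ℂ) ^ 12) := by
    rw [HahnSeries.C_apply, coeffMap_single, map_pow, map_natCast, ← HahnSeries.C_apply]
  rw [h0, hc,
    div_mul_eq_mul_div, mul_comm (lq (denN p)), coeffEmb_unit_mul,
    div_mul_cancel_right₀ MF.lq_delta_ne_zero, ← map_inv₀, zpow_neg, inv_inv]
  norm_cast

/-- **The unit `Δ(τ)/Δ(pτ)`**: its expansion, its Fricke transform, its integrality. -/
theorem exists_deltaUnit :
    ∃ (u : modularFunctionFieldBar p) (D : PowerSeries ℤ), D.constantCoeff = 1 ∧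
      (u : LaurentSeries Qbar) = HahnSeries.single (1 - (p : ℤ)) (1 : Qbar) *
        HahnSeries.ofPowerSeries ℤ Qbar (D.map (Int.castRingHom Qbar)) ∧
      τ u * (u : LaurentSeries Qbar) = HahnSeries.C ((p : Qbar) ^ 12) ∧
      IsIntegral (Algebra.adjoin Qbar {jBar p}) u := by
  set u : modularFunctionFieldBar p := ⟨coeffEmb Qbar (modularUnitSeries p),
    coeffEmb_mem_laurentBaseChange Qbar (modularUnitSeries_mem_full p dvd_rfl)⟩ with hudef
  refine ⟨u, unitPart p, constantCoeff_unitPart p, ?_, fricke_mul_unit τ hC hj hjN u rfl,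
    isIntegral_of_relation _ u (Mono.coeffEmb_jq Qbar) rfl (exists_relation_unit p)⟩
  show coeffEmb Qbar (modularUnitSeries p) = _
  rw [modularUnitSeries_eq, coeffEmb, map_mul, coeffMap_single, map_one, coeffMap_ofPowerSeries]
  congr 2

end Fricke

end Fermat.Agent.Mazur.Disc
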