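import Fermat.Agent.Mazur.Disc.Reduction
import Fermat.Agent.Mazur.Disc.Unit
import Fermat.Agent.Mazur.Interface

/-!
# `NearReduction` at prime level

With the unit `Δ(τ)/Δ(pτ)` of `Unit`, the argument of `Reduction` gives `NearReduction`.
-/

noncomputable section

open ModularCurve AlgebraicCurve

namespace Fermat.Agent.Mazur.Disc

local notation "Qbar" => AlgebraicClosure ℚ

/-- `Δ(τ)/Δ(pτ)` is a unit as required by the reduction argument. -/
theorem exists_isDeltaUnit {p : ℕ} [Fact p.Prime]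
    {τ : modularFunctionFieldBar p →+* LaurentSeries Qbar} (hτ : IsFricke τ) :
    ∃ u D, IsDeltaUnit τ u D := by
  obtain ⟨u, D, h1, h2, h3, h4⟩ := exists_deltaUnit τ hτ.map_const hτ.map_j hτ.map_jN
  exact ⟨u, D, h1, h2, h3, h4⟩

/-- Points of the disc of `∞` reduce to `∞`. -/
theorem nearReduction (p : ℕ) [Fact p.Prime] : NearReduction p := by
  intro ℓ hℓ _ A hA x O y hO hx hy
  have : Fact ℓ.Prime := ⟨hℓ⟩
  obtain ⟨τ, hτ⟩ := exists_isFricke p
  obtain ⟨u, D, hu⟩ := exists_isDeltaUnit hτ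
  obtain ⟨ι, hι⟩ := exists_embedding ℓ hA
  by_cases h : ReductionInputsModL A p
  swap
  · rw [reductionModL_of_not h]; rfl
  obtain ⟨s, hs, hv, -⟩ := exists_isPoint_of_nearInfty hτ hι hx
  obtain ⟨E, hE, rfl⟩ := hy
  rw [reductionModL_mk h]
  have : reductionDegZeroAlong (placeReductionModL h)
      (isPlaceReductionModL_placeReductionModL h).1 E = 0 := Subtype.ext <| by
    rw [coe_reductionDegZeroAlong, hE, Finsupp.mapDomain_sub, Finsupp.mapDomain_single,
      Finsupp.mapDomain_single, placeReduction_point hu hτ hι h hO hs hv, sub_self]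
    rfl
  rw [this, Pic0.mk_zero]

end Fermat.Agent.Mazur.Disc
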