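import Mathlib.Analysis.Normed.Field.Ultra
import Mathlib.Analysis.Normed.Ring.InfiniteSum
import Mathlib.Analysis.SpecificLimits.Normed
import Mathlib.RingTheory.LaurentSeries
import Mathlib.RingTheory.Multiplicity
import Mathlib.RingTheory.PowerSeries.Expand
import Mathlib.RingTheory.PowerSeries.Inverse
import Mathlib.RingTheory.PowerSeries.NoZeroDivisors

/-!
# Evaluation of integral power series on the open unit disc

`Ω` is a complete nonarchimedean field, `O` its closed unit ball. For `‖s‖ < 1` the evaluation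
`O[[q]] → O` has kernel generated by the prime `q - s`, so vanishing orders are `(q - s)`-adic.
-/

noncomputable section

open PowerSeries Filter Topology

namespace Fermat.Agent.Mazur.Disc

variable {Ω : Type*} [NormedField Ω] [IsUltrametricDist Ω]

variable (Ω) in
/-- The closed unit ball, as a subring. -/
def O : Subring Ω where
  carrier := {x | ‖x‖ ≤ 1}
  mul_mem' {x y} hx hy := by
    simpa [norm_mul] using mul_le_one₀ hx (norm_nonneg y) hy
  one_mem' := by simp
  add_mem' {x y} hx hy := le_trans (IsUltrametricDist.norm_add_le_max x y) (max_le hx hy)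
  zero_mem' := by simp
  neg_mem' {x} hx := by simpa using hx

theorem mem_O {x : Ω} : x ∈ O Ω ↔ ‖x‖ ≤ 1 := Iff.rfl

theorem norm_le_one (a : O Ω) : ‖(a : Ω)‖ ≤ 1 := a.2

theorem isUnit_O_iff {a : O Ω} : IsUnit a ↔ ‖(a : Ω)‖ = 1 := by
  refine ⟨fun h => ?_, fun h => ?_⟩
  · obtain ⟨u, rfl⟩ := h
    have h1 : ((u : O Ω) : Ω) * ((u⁻¹ : (O Ω)ˣ) : O Ω) = 1 := by
      rw [← Subring.coe_mul, Units.mul_inv, Subring.coe_one]
    have h2 := congrArg norm h1
    rw [norm_mul, norm_one] at h2
    refine le_antisymm (norm_le_one _) ?_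
    calc (1 : ℝ) = _ := h2.symm
      _ ≤ ‖((u : O Ω) : Ω)‖ * 1 := mul_le_mul_of_nonneg_left (norm_le_one _) (norm_nonneg _)
      _ = _ := mul_one _
  · have h0 : (a : Ω) ≠ 0 := fun h0 => by simp [h0] at h
    exact IsUnit.of_mul_eq_one ⟨(a : Ω)⁻¹, by simp [mem_O, h]⟩ (Subtype.ext (mul_inv_cancel₀ h0))

/-- The open unit disc. -/
structure DiscPt (Ω : Type*) [NormedField Ω] where
  /-- the point -/
  val : Ω
  norm_lt : ‖val‖ < 1

namespace DiscPt

variable (s : DiscPt Ω)

/-- The point in `O`. -/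
def toO : O Ω := ⟨s.val, s.norm_lt.le⟩

@[simp] theorem coe_toO : (s.toO : Ω) = s.val := rfl

omit [IsUltrametricDist Ω] in
theorem summable_geometric : Summable fun n : ℕ => ‖s.val‖ ^ n :=
  summable_geometric_of_lt_one (norm_nonneg _) s.norm_lt

variable [CompleteSpace Ω]

omit [CompleteSpace Ω] in
theorem summable_norm_term (G : PowerSeries (O Ω)) (k : ℕ) :
    Summable fun n => ‖((coeff (n + k) G : O Ω) : Ω) * s.val ^ n‖ := by
  refine Summable.of_nonneg_of_le (fun n => norm_nonneg _) (fun n => ?_) s.summable_geometric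
  rw [norm_mul, norm_pow]
  exact mul_le_of_le_one_left (by positivity) (norm_le_one _)

theorem summable_term (G : PowerSeries (O Ω)) (k : ℕ) :
    Summable fun n => ((coeff (n + k) G : O Ω) : Ω) * s.val ^ n :=
  (s.summable_norm_term G k).of_norm

/-- The value at `s` of the tail `∑ a_{n+k} q^n`. -/
def tailVal (G : PowerSeries (O Ω)) (k : ℕ) : Ω :=
  ∑' n, ((coeff (n + k) G : O Ω) : Ω) * s.val ^ n

omit [CompleteSpace Ω] in
theorem norm_tailVal_le (G : PowerSeries (O Ω)) (k : ℕ) : ‖s.tailVal G k‖ ≤ 1 :=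
  IsUltrametricDist.norm_tsum_le_of_forall_le_of_nonneg zero_le_one fun n => by
    rw [norm_mul, norm_pow]
    exact mul_le_one₀ (norm_le_one _) (by positivity) (pow_le_one₀ (norm_nonneg _) s.norm_lt.le)

theorem tailVal_succ (G : PowerSeries (O Ω)) (k : ℕ) :
    s.tailVal G k = (coeff k G : O Ω) + s.val * s.tailVal G (k + 1) := by
  rw [tailVal, (s.summable_term G k).tsum_eq_zero_add, tailVal, ← tsum_mul_left]
  congr 1
  · simp
  · refine tsum_congr fun n => ?_
    rw [show n + 1 + k = n + (k + 1) by ring, pow_succ]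
    ring

/-- Evaluation at `s`. -/
def eval : PowerSeries (O Ω) →+* O Ω where
  toFun G := ⟨s.tailVal G 0, s.norm_tailVal_le G 0⟩
  map_one' := Subtype.ext <| by
    show (∑' n, _) = _
    rw [tsum_eq_single 0]
    · simp
    · intro n hn
      simp [coeff_one, hn]
  map_zero' := Subtype.ext <| by simp [tailVal]
  map_add' G H := Subtype.ext <| by
    simp only [Subring.coe_add, tailVal]
    rw [← (s.summable_term G 0).tsum_add (s.summable_term H 0)]
    exact tsum_congr fun n => by simp [add_mul]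
  map_mul' G H := Subtype.ext <| by
    simp only [Subring.coe_mul, tailVal]
    rw [tsum_mul_tsum_eq_tsum_sum_antidiagonal_of_summable_norm (s.summable_norm_term G 0)
      (s.summable_norm_term H 0)]
    refine tsum_congr fun n => ?_
    rw [add_zero, coeff_mul, AddSubmonoidClass.coe_finsetSum, Finset.sum_mul]
    refine Finset.sum_congr rfl fun x hx => ?_
    rw [Finset.HasAntidiagonal.mem_antidiagonal] at hx
    rw [Subring.coe_mul, ← hx, pow_add, add_zero, add_zero]
    ring

theorem coe_eval (G : PowerSeries (O Ω)) : (s.eval G : Ω) = s.tailVal G 0 := rfl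

theorem eval_C (a : O Ω) : s.eval (C a) = a := Subtype.ext <| by
  rw [coe_eval, tailVal, tsum_eq_single 0]
  · simp
  · intro n hn
    simp [coeff_C, hn]

theorem eval_X : s.eval X = s.toO := Subtype.ext <| by
  rw [coe_eval, tailVal, tsum_eq_single 1]
  · simp
  · intro n hn
    simp [coeff_X, hn]

theorem norm_eval_of_unit {G : PowerSeries (O Ω)} (h : IsUnit (constantCoeff G)) :
    ‖(s.eval G : Ω)‖ = 1 :=
  isUnit_O_iff.mp ((isUnit_iff_constantCoeff.mpr h).map s.eval)

theorem norm_eval_le {G : PowerSeries (O Ω)} (h : constantCoeff G = 0) :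
    ‖(s.eval G : Ω)‖ ≤ ‖s.val‖ := by
  obtain ⟨H, rfl⟩ := X_dvd_iff.mpr h
  rw [map_mul, eval_X, Subring.coe_mul, norm_mul, coe_toO]
  exact mul_le_of_le_one_right (norm_nonneg _) (norm_le_one _)

/-- `q - s`. -/
def lin : PowerSeries (O Ω) := X - C s.toO

theorem eval_lin : s.eval s.lin = 0 := by rw [lin, map_sub, eval_X, eval_C, sub_self]

omit [CompleteSpace Ω] in
theorem coeff_one_lin : coeff 1 s.lin = 1 := by simp [lin]

omit [CompleteSpace Ω] in
theorem lin_ne_zero : s.lin ≠ 0 := fun h => by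
  have := s.coeff_one_lin
  rw [h, map_zero] at this
  exact zero_ne_one this

theorem lin_dvd {G : PowerSeries (O Ω)} (h : s.eval G = 0) : s.lin ∣ G := by
  refine ⟨PowerSeries.mk fun n => ⟨s.tailVal G (n + 1), s.norm_tailVal_le G _⟩,
      PowerSeries.ext fun n => ?_⟩
  refine Subtype.ext ?_
  rw [lin, sub_mul, map_sub, AddSubgroupClass.coe_sub, coeff_C_mul, Subring.coe_mul,
      coeff_mk, coe_toO]
  rcases n with - | n
  · rw [coeff_zero_X_mul, Subring.coe_zero, zero_sub, ← add_eq_zero_iff_eq_neg, ← s.tailVal_succ]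
    exact (congrArg Subtype.val h : _)
  · rw [coeff_succ_X_mul, coeff_mk]
    show _ = s.tailVal G (n + 1) - s.val * s.tailVal G (n + 1 + 1)
    linear_combination -(s.tailVal_succ G (n + 1))

theorem dvd_iff {G : PowerSeries (O Ω)} : s.lin ∣ G ↔ s.eval G = 0 :=
  ⟨fun ⟨H, hH⟩ => by rw [hH, map_mul, eval_lin, zero_mul], s.lin_dvd⟩

theorem prime_lin : Prime s.lin := by
  refine ⟨s.lin_ne_zero, fun h => ?_, fun a b h => ?_⟩
  · exact zero_ne_one (α := O Ω) <| isUnit_zero_iff.mp (s.eval_lin ▸ h.map s.eval)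
  · rw [dvd_iff, map_mul, mul_eq_zero] at h
    rw [dvd_iff, dvd_iff]
    exact h

theorem exists_factor {G : PowerSeries (O Ω)} (hG : G ≠ 0) :
    ∃ (n : ℕ) (U : PowerSeries (O Ω)), G = s.lin ^ n * U ∧ s.eval U ≠ 0 := by
  have hfin : FiniteMultiplicity s.lin G := by
    by_contra hcon
    rw [FiniteMultiplicity.not_iff_forall] at hcon
    obtain ⟨m, hm⟩ : ∃ m, coeff m G ≠ 0 := by
      by_contra! hall
      exact hG (PowerSeries.ext fun m => by simpa using hall m)
    have key : ∀ (N : ℕ) (H : PowerSeries (O Ω)) (i : ℕ),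
        ‖((coeff i (s.lin ^ N * H) : O Ω) : Ω)‖ ≤ ‖s.val‖ ^ (N - i) := by
      intro N
      induction N with
      | zero => intro H i; simpa using norm_le_one _
      | succ N ih =>
        intro H i
        have e : s.lin ^ (N + 1) * H = X * (s.lin ^ N * H) - C s.toO * (s.lin ^ N * H) := by
          rw [pow_succ', lin]; ring
        rw [e, map_sub, AddSubgroupClass.coe_sub, coeff_C_mul, Subring.coe_mul, coe_toO]
        rcases i with - | i
        · rw [coeff_zero_X_mul, Subring.coe_zero, zero_sub, norm_neg, norm_mul, Nat.sub_zero,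
            pow_succ']
          exact mul_le_mul_of_nonneg_left (by simpa using ih H 0) (norm_nonneg _)
        · rw [coeff_succ_X_mul, Nat.succ_sub_succ, sub_eq_add_neg]
          refine (IsUltrametricDist.norm_add_le_max _ _).trans (max_le (ih H i) ?_)
          rw [norm_neg, norm_mul]
          refine (mul_le_mul_of_nonneg_left (ih H (i + 1)) (norm_nonneg _)).trans ?_
          rw [← pow_succ']
          exact pow_le_pow_of_le_one (norm_nonneg _) s.norm_lt.le (by omega)
    have hzero : Tendsto (fun N : ℕ => ‖s.val‖ ^ (N - m)) atTop (𝓝 0) :=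
      (tendsto_pow_atTop_nhds_zero_of_lt_one (norm_nonneg _) s.norm_lt).comp
        (tendsto_sub_atTop_nat m)
    refine hm (Subtype.ext ?_)
    rw [Subring.coe_zero, ← norm_eq_zero]
    refine le_antisymm (ge_of_tendsto' hzero fun N => ?_) (norm_nonneg _)
    obtain ⟨H, hH⟩ := hcon N
    rw [hH]
    exact key N H m
  obtain ⟨U, hU, hndvd⟩ := hfin.exists_eq_pow_mul_and_not_dvd
  exact ⟨_, U, hU, fun h => hndvd (s.lin_dvd h)⟩

theorem factor_unique {m n : ℕ} {U V : PowerSeries (O Ω)} (hU : s.eval U ≠ 0) (hV : s.eval V ≠ 0)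
    (h : s.lin ^ m * U = s.lin ^ n * V) : m = n := by
  wlog hmn : m ≤ n generalizing m n U V
  · exact (this hV hU h.symm (le_of_not_ge hmn)).symm
  obtain ⟨k, rfl⟩ := Nat.exists_eq_add_of_le hmn
  rw [pow_add, mul_assoc] at h
  have := mul_left_cancel₀ (pow_ne_zero _ s.lin_ne_zero) h
  rcases k with - | k
  · simp
  · refine absurd ?_ hU
    rw [this, map_mul, map_pow, eval_lin, zero_pow (by omega), zero_mul]

theorem eq_of_lin_dvd {t : DiscPt Ω} (h : s.eval t.lin = 0) : s.val = t.val := by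
  rw [lin, map_sub, eval_X, eval_C, sub_eq_zero] at h
  exact congrArg Subtype.val h

theorem prod_lin_pow_dvd {ι : Type*} (S : Finset ι) (pt : ι → DiscPt Ω)
    (hinj : ∀ i ∈ S, ∀ j ∈ S, (pt i).val = (pt j).val → i = j) (e : ι → ℕ)
    {G : PowerSeries (O Ω)} (h : ∀ i ∈ S, (pt i).lin ^ e i ∣ G) :
    ∏ i ∈ S, (pt i).lin ^ e i ∣ G := by
  classical
  induction S using Finset.induction_on with
  | empty => simp
  | insert a t ha ih =>
    rw [Finset.prod_insert ha]
    obtain ⟨H, hH⟩ := ih (fun i hi j hj => hinj i (Finset.mem_insert_of_mem hi) j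
      (Finset.mem_insert_of_mem hj)) fun i hi => h i (Finset.mem_insert_of_mem hi)
    have hnd : ¬ (pt a).lin ∣ ∏ i ∈ t, (pt i).lin ^ e i := by
      intro hd
      obtain ⟨i, hi, hdi⟩ := (pt a).prime_lin.exists_mem_finset_dvd hd
      have := (pt a).prime_lin.dvd_of_dvd_pow hdi
      rw [dvd_iff] at this
      exact ha (hinj a (Finset.mem_insert_self a t) i (Finset.mem_insert_of_mem hi)
        ((pt a).eq_of_lin_dvd this) ▸ hi)
    obtain ⟨W, rfl⟩ := (pt a).prime_lin.pow_dvd_of_dvd_mul_left (e a) hnd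
      (hH ▸ h a (Finset.mem_insert_self a t))
    exact ⟨W, by rw [hH]; ring⟩

/-- Powers of a disc point. -/
def powPt (l : ℕ) [NeZero l] : DiscPt Ω :=
  ⟨s.val ^ l, by rw [norm_pow]; exact pow_lt_one₀ (norm_nonneg _) s.norm_lt (NeZero.ne l)⟩

theorem eval_expand (l : ℕ) [hl : NeZero l] (G : PowerSeries (O Ω)) :
    s.eval (expand l hl.out G) = (s.powPt l).eval G := by
  refine Subtype.ext ?_
  rw [coe_eval, coe_eval, tailVal, tailVal]
  have hi : Function.Injective fun n : ℕ => l * n :=
    fun a b h => Nat.eq_of_mul_eq_mul_left (Nat.pos_of_ne_zero hl.out) h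
  rw [← hi.tsum_eq (f := fun n => ((coeff (n + 0) (expand l hl.out G) : O Ω) : Ω) * s.val ^ n)]
  · refine tsum_congr fun n => ?_
    simp only [add_zero, coeff_expand_mul, powPt, pow_mul]
  · intro n hn
    simp only [Function.mem_support, ne_eq, add_zero] at hn
    by_cases hd : l ∣ n
    · obtain ⟨c, rfl⟩ := hd
      exact ⟨c, rfl⟩
    · exact absurd (by rw [coeff_expand_of_not_dvd _ _ _ hd]; simp) hn

end DiscPt

end Fermat.Agent.Mazur.Disc
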