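import Mathlib.Algebra.Ring.GeomSum
import Fermat.Prelude.Def_ModularCurve_LaurentCoeff
import Fermat.Agent.EichlerShimura.Series
import Fermat.Agent.Mazur.Disc.Eval

/-!
# The field of fractions of `O[[q]]` inside `Ω((q))` and vanishing orders at a point of the disc
-/

noncomputable section

open PowerSeries ModularCurve

namespace Fermat.Agent.Mazur.Disc

variable {Ω : Type*} [NormedField Ω] [IsUltrametricDist Ω]

/-- An integral power series as a Laurent series. -/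
def toL : PowerSeries (O Ω) →+* LaurentSeries Ω :=
  (HahnSeries.ofPowerSeries ℤ Ω).comp (PowerSeries.map (O Ω).subtype)

theorem toL_apply (G : PowerSeries (O Ω)) :
    toL G = HahnSeries.ofPowerSeries ℤ Ω (G.map (O Ω).subtype) := rfl

theorem toL_coeff_nat (G : PowerSeries (O Ω)) (n : ℕ) :
    (toL G).coeff n = ((coeff n G : O Ω) : Ω) := by
  rw [toL_apply, HahnSeries.ofPowerSeries_apply_coeff, coeff_map]
  rfl

theorem toL_coeff_neg (G : PowerSeries (O Ω)) {n : ℤ} (hn : n < 0) : (toL G).coeff n = 0 :=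
  ofPowerSeries_coeff_of_neg _ hn

theorem toL_injective : Function.Injective (toL (Ω := Ω)) := fun G H h =>
  PowerSeries.ext fun n => Subtype.ext <| by
    rw [← toL_coeff_nat, ← toL_coeff_nat, h]

theorem toL_C (a : O Ω) : toL (C a) = HahnSeries.C (a : Ω) := by
  rw [toL_apply, map_C, HahnSeries.ofPowerSeries_C]
  rfl

theorem toL_X : toL (X : PowerSeries (O Ω)) = HahnSeries.single 1 1 := by
  rw [toL_apply, map_X, HahnSeries.ofPowerSeries_X]

theorem toL_ne_zero {G : PowerSeries (O Ω)} (h : G ≠ 0) : toL G ≠ 0 :=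
  (map_ne_zero_iff _ toL_injective).mpr h

theorem qExpand_toL (l : ℕ) [hl : NeZero l] (G : PowerSeries (O Ω)) :
    qExpand Ω l (toL G) = toL (expand l hl.out G) := by
  rw [toL_apply, toL_apply, map_expand, EichlerShimura.ofPowerSeries_expand]

variable (Ω) in
/-- Quotients of integral power series. -/
def merField : Subfield (LaurentSeries Ω) where
  carrier := {x | ∃ a b : PowerSeries (O Ω), b ≠ 0 ∧ x * toL b = toL a}
  mul_mem' := by
    rintro x y ⟨a, b, hb, h⟩ ⟨a', b', hb', h'⟩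
    exact ⟨a * a', b * b', mul_ne_zero hb hb', by rw [map_mul, map_mul, ← h, ← h']; ring⟩
  one_mem' := ⟨1, 1, one_ne_zero, by simp⟩
  add_mem' := by
    rintro x y ⟨a, b, hb, h⟩ ⟨a', b', hb', h'⟩
    exact ⟨a * b' + a' * b, b * b', mul_ne_zero hb hb',
      by rw [map_mul, map_add, map_mul, map_mul, ← h, ← h']; ring⟩
  zero_mem' := ⟨0, 1, one_ne_zero, by simp⟩
  neg_mem' := by
    rintro x ⟨a, b, hb, h⟩
    exact ⟨-a, b, hb, by rw [map_neg, neg_mul, h]⟩
  inv_mem' := by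
    rintro x ⟨a, b, hb, h⟩
    rcases eq_or_ne a 0 with rfl | ha
    · have hx : x = 0 := by
        simpa [toL_ne_zero hb] using h
      exact ⟨0, 1, one_ne_zero, by simp [hx]⟩
    · refine ⟨b, a, ha, ?_⟩
      have hx : x ≠ 0 := fun hx => toL_ne_zero ha (by rw [← h, hx, zero_mul])
      rw [← h, ← mul_assoc, inv_mul_cancel₀ hx, one_mul]

theorem toL_mem (G : PowerSeries (O Ω)) : toL G ∈ merField Ω := ⟨G, 1, one_ne_zero, by simp⟩

theorem C_mem (c : Ω) : HahnSeries.C c ∈ merField Ω := by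
  rcases le_or_gt ‖c‖ 1 with h | h
  · exact toL_C (⟨c, h⟩ : O Ω) ▸ toL_mem _
  · have hi : c⁻¹ ∈ O Ω := by
      rw [mem_O, norm_inv]
      exact inv_le_one_of_one_le₀ h.le
    have := (merField Ω).inv_mem (toL_C (⟨c⁻¹, hi⟩ : O Ω) ▸ toL_mem (C (⟨c⁻¹, hi⟩ : O Ω)))
    rwa [← map_inv₀, inv_inv] at this

theorem qExpand_mem (l : ℕ) [hl : NeZero l] {x : LaurentSeries Ω} (h : x ∈ merField Ω) :
    qExpand Ω l x ∈ merField Ω := by
  obtain ⟨a, b, hb, h⟩ := h
  exact ⟨expand l hl.out a, expand l hl.out b,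
    fun h0 => hb (toL_injective (qExpand_injective l (by rw [qExpand_toL, qExpand_toL, h0]; simp))),
    by rw [← qExpand_toL, ← qExpand_toL, ← map_mul, h]⟩

variable [CompleteSpace Ω]

namespace DiscPt

variable (s : DiscPt Ω)

open Classical in
/-- Vanishing order at `s` of an integral power series. -/
def ordNat (G : PowerSeries (O Ω)) : ℕ :=
  if h : G = 0 then 0 else (s.exists_factor h).choose

theorem ordNat_spec {G : PowerSeries (O Ω)} (h : G ≠ 0) :
    ∃ U, G = s.lin ^ s.ordNat G * U ∧ s.eval U ≠ 0 := by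
  rw [ordNat, dif_neg h]
  exact (s.exists_factor h).choose_spec

theorem ordNat_eq {G : PowerSeries (O Ω)} {n : ℕ} {U : PowerSeries (O Ω)} (hU : s.eval U ≠ 0)
    (h : G = s.lin ^ n * U) : s.ordNat G = n := by
  have hG : G ≠ 0 := by
    rw [h]
    exact mul_ne_zero (pow_ne_zero _ s.lin_ne_zero) fun h0 => hU (by rw [h0, map_zero])
  obtain ⟨V, hV, hV'⟩ := s.ordNat_spec hG
  exact s.factor_unique hV' hU (hV ▸ h)

theorem ordNat_of_eval_ne_zero {G : PowerSeries (O Ω)} (h : s.eval G ≠ 0) : s.ordNat G = 0 :=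
  s.ordNat_eq h (by rw [pow_zero, one_mul])

theorem ordNat_mul {G H : PowerSeries (O Ω)} (hG : G ≠ 0) (hH : H ≠ 0) :
    s.ordNat (G * H) = s.ordNat G + s.ordNat H := by
  obtain ⟨U, hU, hU'⟩ := s.ordNat_spec hG
  obtain ⟨V, hV, hV'⟩ := s.ordNat_spec hH
  refine s.ordNat_eq (U := U * V) (by rw [map_mul]; exact mul_ne_zero hU' hV') ?_
  conv_lhs => rw [hU, hV]
  ring

theorem lin_pow_dvd_iff {G : PowerSeries (O Ω)} (hG : G ≠ 0) {n : ℕ} :
    s.lin ^ n ∣ G ↔ n ≤ s.ordNat G := by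
  obtain ⟨U, hU, hU'⟩ := s.ordNat_spec hG
  refine ⟨fun ⟨V, hV⟩ => ?_, fun h => ?_⟩
  · have hV0 : V ≠ 0 := fun h0 => hG (by rw [hV, h0, mul_zero])
    have h1 := s.ordNat_mul (pow_ne_zero n s.lin_ne_zero) hV0
    rw [← hV, s.ordNat_eq (G := s.lin ^ n) (U := 1) (by simp) (mul_one _).symm] at h1
    omega
  · rw [hU]
    exact dvd_mul_of_dvd_left (pow_dvd_pow _ h) _

open Classical in
/-- Vanishing order at `s` on quotients of integral power series. -/
def ordAt (x : LaurentSeries Ω) : ℤ :=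
  if h : x ∈ merField Ω then (s.ordNat h.choose : ℤ) - s.ordNat h.choose_spec.choose else 0

theorem ordAt_eq {x : LaurentSeries Ω} (hx : x ≠ 0) {a b : PowerSeries (O Ω)} (hb : b ≠ 0)
    (h : x * toL b = toL a) : s.ordAt x = (s.ordNat a : ℤ) - s.ordNat b := by
  have hm : x ∈ merField Ω := ⟨a, b, hb, h⟩
  rw [ordAt, dif_pos hm]
  obtain ⟨hb', h'⟩ := hm.choose_spec.choose_spec
  generalize hm.choose_spec.choose = b' at hb' h'
  generalize hm.choose = a' at h'
  have ha : a ≠ 0 := fun h0 => mul_ne_zero hx (toL_ne_zero hb) (by rw [h, h0, map_zero])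
  have ha' : a' ≠ 0 := fun h0 => mul_ne_zero hx (toL_ne_zero hb') (by rw [h', h0, map_zero])
  have e : a' * b = a * b' := toL_injective (by rw [map_mul, map_mul, ← h, ← h']; ring)
  have := congrArg s.ordNat e
  rw [s.ordNat_mul ha' hb, s.ordNat_mul ha hb'] at this
  omega

theorem ordAt_toL {G : PowerSeries (O Ω)} (hG : G ≠ 0) : s.ordAt (toL G) = s.ordNat G := by
  rw [s.ordAt_eq (toL_ne_zero hG) (one_ne_zero) (a := G) (by simp),
    s.ordNat_of_eval_ne_zero (G := 1) (by simp)]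
  simp

theorem ordAt_mul {x y : LaurentSeries Ω} (hxm : x ∈ merField Ω) (hym : y ∈ merField Ω)
    (hx : x ≠ 0) (hy : y ≠ 0) : s.ordAt (x * y) = s.ordAt x + s.ordAt y := by
  obtain ⟨a, b, hb, h⟩ := hxm
  obtain ⟨a', b', hb', h'⟩ := hym
  have ha : a ≠ 0 := fun h0 => mul_ne_zero hx (toL_ne_zero hb) (by rw [h, h0, map_zero])
  have ha' : a' ≠ 0 := fun h0 => mul_ne_zero hy (toL_ne_zero hb') (by rw [h', h0, map_zero])
  rw [s.ordAt_eq hx hb h, s.ordAt_eq hy hb' h',
    s.ordAt_eq (mul_ne_zero hx hy) (mul_ne_zero hb hb') (a := a * a')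
      (by rw [map_mul, map_mul, ← h, ← h']; ring),
    s.ordNat_mul ha ha', s.ordNat_mul hb hb']
  push_cast
  ring

theorem ordAt_add {x y : LaurentSeries Ω} (hxm : x ∈ merField Ω) (hym : y ∈ merField Ω)
    (hx : x ≠ 0) (hy : y ≠ 0) (hxy : x + y ≠ 0) :
    min (s.ordAt x) (s.ordAt y) ≤ s.ordAt (x + y) := by
  obtain ⟨a, b, hb, h⟩ := hxm
  obtain ⟨a', b', hb', h'⟩ := hym
  have ha : a ≠ 0 := fun h0 => mul_ne_zero hx (toL_ne_zero hb) (by rw [h, h0, map_zero])
  have ha' : a' ≠ 0 := fun h0 => mul_ne_zero hy (toL_ne_zero hb') (by rw [h', h0, map_zero])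
  have e : (x + y) * toL (b * b') = toL (a * b' + a' * b) := by
    rw [map_mul, map_add, map_mul, map_mul, ← h, ← h']; ring
  have hne : a * b' + a' * b ≠ 0 := fun h0 =>
    mul_ne_zero hxy (toL_ne_zero (mul_ne_zero hb hb')) (by rw [e, h0, map_zero])
  rw [s.ordAt_eq hx hb h, s.ordAt_eq hy hb' h', s.ordAt_eq hxy (mul_ne_zero hb hb') e,
    s.ordNat_mul hb hb']
  have hd : s.lin ^ min (s.ordNat (a * b')) (s.ordNat (a' * b)) ∣ a * b' + a' * b :=
    dvd_add ((s.lin_pow_dvd_iff (mul_ne_zero ha hb')).mpr (min_le_left _ _))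
      ((s.lin_pow_dvd_iff (mul_ne_zero ha' hb)).mpr (min_le_right _ _))
  rw [s.lin_pow_dvd_iff hne, s.ordNat_mul ha hb', s.ordNat_mul ha' hb] at hd
  omega

theorem ordAt_C {c : Ω} (hc : c ≠ 0) : s.ordAt (HahnSeries.C c) = 0 := by
  have hne : (HahnSeries.C c : LaurentSeries Ω) ≠ 0 := HahnSeries.C_ne_zero hc
  rcases le_or_gt ‖c‖ 1 with h | h
  · have : s.eval (C (⟨c, h⟩ : O Ω)) ≠ 0 := by
      rw [eval_C]; exact fun h0 => hc (congrArg Subtype.val h0)
    rw [← toL_C (⟨c, h⟩ : O Ω), s.ordAt_toL (fun h0 => this (by rw [h0, map_zero])),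
      s.ordNat_of_eval_ne_zero this]
    rfl
  · have hi : c⁻¹ ∈ O Ω := by
      rw [mem_O, norm_inv]
      exact inv_le_one_of_one_le₀ h.le
    have hne' : s.eval (C (⟨c⁻¹, hi⟩ : O Ω)) ≠ 0 := by
      rw [eval_C]; exact fun h0 => inv_ne_zero hc (congrArg Subtype.val h0)
    have hb : C (⟨c⁻¹, hi⟩ : O Ω) ≠ 0 := fun h0 => hne' (by rw [h0, map_zero])
    rw [s.ordAt_eq hne hb (a := 1) (by rw [toL_C, map_one, ← map_mul, mul_inv_cancel₀ hc, map_one]),
      s.ordNat_of_eval_ne_zero hne', s.ordNat_of_eval_ne_zero (G := 1) (by simp)]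
    rfl

theorem ordNat_expand (hs : s.val ≠ 0) (l : ℕ) [hl : NeZero l] (hlΩ : (l : Ω) ≠ 0)
    {G : PowerSeries (O Ω)} (hG : G ≠ 0) :
    s.ordNat (expand l hl.out G) = (s.powPt l).ordNat G := by
  obtain ⟨U, hU, hU'⟩ := (s.powPt l).ordNat_spec hG
  set W : PowerSeries (O Ω) :=
    ∑ i ∈ Finset.range l, X ^ i * C s.toO ^ (l - 1 - i) with hW
  have e : expand l hl.out (s.powPt l).lin = s.lin * W := by
    rw [lin, map_sub, expand_X, expand_C, lin, hW, mul_comm, geom_sum₂_mul, ← map_pow]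
    rfl
  have hW' : s.eval W ≠ 0 := by
    have : ((s.eval W : O Ω) : Ω) = l * s.val ^ (l - 1) := by
      rw [hW, map_sum, AddSubmonoidClass.coe_finsetSum]
      rw [Finset.sum_congr rfl fun i hi => ?_, Finset.sum_const, Finset.card_range, nsmul_eq_mul]
      rw [map_mul, map_pow, map_pow, eval_X, eval_C, ← pow_add, SubmonoidClass.coe_pow, coe_toO]
      congr 1
      rw [Finset.mem_range] at hi
      omega
    intro h0
    rw [h0, Subring.coe_zero] at this
    exact mul_ne_zero hlΩ (pow_ne_zero _ hs) this.symm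
  refine s.ordNat_eq (U := W ^ (s.powPt l).ordNat G * expand l hl.out U) ?_ ?_
  · rw [map_mul, map_pow, eval_expand]
    exact mul_ne_zero (pow_ne_zero _ hW') hU'
  · conv_lhs => rw [hU]
    rw [map_mul, map_pow, e, mul_pow, mul_assoc]

theorem ordAt_qExpand (hs : s.val ≠ 0) (l : ℕ) [hl : NeZero l] (hlΩ : (l : Ω) ≠ 0)
    {x : LaurentSeries Ω} (hxm : x ∈ merField Ω) (hx : x ≠ 0) :
    s.ordAt (qExpand Ω l x) = (s.powPt l).ordAt x := by
  obtain ⟨a, b, hb, h⟩ := hxm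
  have ha : a ≠ 0 := fun h0 => mul_ne_zero hx (toL_ne_zero hb) (by rw [h, h0, map_zero])
  have hb' : expand l hl.out b ≠ 0 := fun h0 =>
    toL_ne_zero hb (qExpand_injective l (by rw [qExpand_toL, h0, map_zero, map_zero]))
  rw [s.ordAt_eq ((map_ne_zero_iff _ (qExpand_injective l)).mpr hx) hb' (a := expand l hl.out a)
      (by rw [← qExpand_toL, ← qExpand_toL, ← map_mul, h]),
    (s.powPt l).ordAt_eq hx hb h, s.ordNat_expand hs l hlΩ ha, s.ordNat_expand hs l hlΩ hb]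

end DiscPt

end Fermat.Agent.Mazur.Disc
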