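import Fermat.Prelude.Def_ModularCurve_JqCoeff
import Fermat.Prelude.Thm_ModularCurve_coeffMap_qExpand
import Fermat.Agent.Mazur.Disc.Mero

/-!
# The function `1/j` on the open unit disc

It is an isometric bijection of the disc fixing `0`, so `j - a` has exactly one zero there for
`1 < ‖a‖`, and it is simple.
-/

noncomputable section

open PowerSeries ModularCurve Filter Topology

namespace Fermat.Agent.Mazur.Disc

variable (Ω : Type*) [NormedField Ω] [IsUltrametricDist Ω]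

/-- `1/j = q - 744 q^2 + ⋯`. -/
def jinvSer : PowerSeries (O Ω) :=
  (X * jNum.invOfUnit 1).map (Int.castRingHom (O Ω))

theorem constantCoeff_jinvSer : constantCoeff (jinvSer Ω) = 0 := by
  rw [jinvSer, ← coeff_zero_eq_constantCoeff, coeff_map, coeff_zero_X_mul, map_zero]

theorem coeff_one_jinvSer : coeff 1 (jinvSer Ω) = 1 := by
  rw [jinvSer, coeff_map, coeff_succ_X_mul, coeff_zero_eq_constantCoeff, constantCoeff_invOfUnit]
  simp

theorem jinvSer_ne_zero : jinvSer Ω ≠ 0 := fun h => by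
  have := coeff_one_jinvSer Ω
  rw [h, map_zero] at this
  exact zero_ne_one this

theorem jqModC_mul_jinv : jqModC Ω * toL (jinvSer Ω) = 1 := by
  have h : (jNum.map (Int.castRingHom Ω)) * ((jNum.invOfUnit 1).map (Int.castRingHom Ω)) = 1 := by
    rw [← map_mul, mul_invOfUnit _ _ (by simp), map_one]
  rw [jqModC, toL_apply, jinvSer]
  have e : PowerSeries.map (O Ω).subtype ((X * jNum.invOfUnit 1).map (Int.castRingHom (O Ω))) =
      X * (jNum.invOfUnit 1).map (Int.castRingHom Ω) := by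
    rw [← RingHom.comp_apply, ← map_comp, map_mul, map_X,
      RingHom.ext_int ((O Ω).subtype.comp (Int.castRingHom (O Ω))) (Int.castRingHom Ω)]
  rw [e, map_mul, HahnSeries.ofPowerSeries_X, mul_mul_mul_comm, HahnSeries.single_mul_single,
    ← map_mul, h]
  simp

theorem jqModC_mem : jqModC Ω ∈ merField Ω :=
  ⟨1, jinvSer Ω, jinvSer_ne_zero Ω, by rw [jqModC_mul_jinv, map_one]⟩

variable {Ω} [CompleteSpace Ω]

namespace DiscPt

variable (s t : DiscPt Ω)

/-- `1/j` at `s`. -/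
def J : Ω := (s.eval (jinvSer Ω) : O Ω)

theorem exists_sub_factor :
    ∃ H : PowerSeries (O Ω), jinvSer Ω - C (t.eval (jinvSer Ω)) = t.lin * H ∧
      ‖((constantCoeff H : O Ω) : Ω) - 1‖ ≤ ‖t.val‖ := by
  obtain ⟨H, hH⟩ := t.lin_dvd (G := jinvSer Ω - C (t.eval (jinvSer Ω)))
    (by rw [map_sub, eval_C, sub_self])
  refine ⟨H, hH, ?_⟩
  have h1 := congrArg (coeff 1) hH
  rw [map_sub, coeff_one_jinvSer, coeff_C, if_neg one_ne_zero, sub_zero, lin, sub_mul, map_sub,
    coeff_succ_X_mul, coeff_C_mul, coeff_zero_eq_constantCoeff] at h1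
  have e : ((constantCoeff H : O Ω) : Ω) - 1 = t.val * (coeff 1 H : O Ω) := by
    have h2 := congrArg Subtype.val h1
    rw [Subring.coe_one, AddSubgroupClass.coe_sub, Subring.coe_mul, coe_toO] at h2
    linear_combination -h2
  rw [e, norm_mul]
  exact mul_le_of_le_one_right (norm_nonneg _) (norm_le_one _)

theorem exists_J_sub :
    ∃ h : Ω, s.J - t.J = (s.val - t.val) * h ∧ ‖h - 1‖ ≤ max ‖s.val‖ ‖t.val‖ := by
  obtain ⟨H, hH, hH0⟩ := t.exists_sub_factor
  refine ⟨(s.eval H : O Ω), ?_, ?_⟩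
  · have h1 := congrArg (fun G => ((s.eval G : O Ω) : Ω)) hH
    simp only [map_sub, map_mul, lin, eval_C, eval_X, AddSubgroupClass.coe_sub, Subring.coe_mul,
      coe_toO] at h1
    exact h1
  · have e : ((s.eval H : O Ω) : Ω) - 1 =
        ((s.eval (H - C (constantCoeff H)) : O Ω) : Ω) + (((constantCoeff H : O Ω) : Ω) - 1) := by
      rw [map_sub, eval_C, AddSubgroupClass.coe_sub]
      ring
    rw [e]
    exact (IsUltrametricDist.norm_add_le_max _ _).trans
      (max_le_max (s.norm_eval_le (by simp)) hH0)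

theorem norm_J_sub : ‖s.J - t.J‖ = ‖s.val - t.val‖ := by
  obtain ⟨h, he, hh⟩ := s.exists_J_sub t
  have h1 : ‖h - 1‖ < ‖(1 : Ω)‖ := by
    rw [norm_one]; exact hh.trans_lt (max_lt s.norm_lt t.norm_lt)
  have := IsUltrametricDist.norm_add_eq_max_of_norm_ne_norm h1.ne
  rw [sub_add_cancel, max_eq_right h1.le, norm_one] at this
  rw [he, norm_mul, this, mul_one]

theorem J_injective {s t : DiscPt Ω} (h : s.J = t.J) : s.val = t.val := by
  have := s.norm_J_sub t
  rw [h, sub_self, norm_zero, eq_comm, norm_eq_zero, sub_eq_zero] at this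
  exact this

theorem norm_J : ‖s.J‖ = ‖s.val‖ := by
  have h0 : (DiscPt.mk (0 : Ω) (by simp)).J = 0 := by
    rw [J, ← norm_eq_zero]
    refine le_antisymm ((DiscPt.norm_eval_le _ (constantCoeff_jinvSer Ω)).trans (by simp)) ?_
    exact norm_nonneg _
  simpa [h0] using s.norm_J_sub ⟨0, by simp⟩

theorem J_ne_zero (hs : s.val ≠ 0) : s.J ≠ 0 :=
  norm_ne_zero_iff.mp (by rw [norm_J]; exact norm_ne_zero_iff.mpr hs)

theorem exists_J_eq {z : Ω} (hz : ‖z‖ < 1) : ∃ s : DiscPt Ω, s.J = z := by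
  classical
  let step : {x : Ω // ‖x‖ ≤ ‖z‖} → {x : Ω // ‖x‖ ≤ ‖z‖} := fun x =>
    ⟨x.1 + (z - (DiscPt.mk x.1 (x.2.trans_lt hz)).J), by
      refine (IsUltrametricDist.norm_add_le_max _ _).trans (max_le x.2 ?_)
      rw [sub_eq_add_neg]
      refine (IsUltrametricDist.norm_add_le_max _ _).trans (max_le le_rfl ?_)
      rw [norm_neg, norm_J]
      exact x.2⟩
  let x : ℕ → {x : Ω // ‖x‖ ≤ ‖z‖} := fun n => step^[n] ⟨0, by simp⟩
  let pt : ℕ → DiscPt Ω := fun n => ⟨(x n).1, (x n).2.trans_lt hz⟩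
  have hx : ∀ n, (x (n + 1)).1 = (x n).1 + (z - (pt n).J) := fun n => by
    simp only [x, pt, Function.iterate_succ_apply', step]
  have hd : ∀ n, ‖z - (pt n).J‖ ≤ ‖z‖ * ‖z‖ ^ n := by
    intro n
    induction n with
    | zero =>
      have : (pt 0).J = 0 := norm_eq_zero.mp (by rw [norm_J]; simp [pt, x])
      simp [this]
    | succ n ih =>
      obtain ⟨h, he, hh⟩ := (pt (n + 1)).exists_J_sub (pt n)
      have e : z - (pt (n + 1)).J = (z - (pt n).J) * (1 - h) := by
        have h2 : (pt (n + 1)).val - (pt n).val = z - (pt n).J := by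
          simp only [pt]; rw [hx]; ring
        rw [h2] at he
        linear_combination -he
      rw [e, norm_mul, norm_sub_rev 1 h, pow_succ, ← mul_assoc]
      exact mul_le_mul ih (hh.trans (max_le (x (n + 1)).2 (x n).2)) (norm_nonneg _) (by positivity)
  have hc : CauchySeq fun n => (x n).1 := by
    refine cauchySeq_of_le_geometric ‖z‖ ‖z‖ hz fun n => ?_
    rw [dist_eq_norm, norm_sub_rev, hx, add_sub_cancel_left]
    exact hd n
  obtain ⟨L, hL⟩ := cauchySeq_tendsto_of_complete hc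
  have hLz : ‖L‖ ≤ ‖z‖ := le_of_tendsto' hL.norm fun n => (x n).2
  refine ⟨⟨L, hLz.trans_lt hz⟩, ?_⟩
  have h1 : Tendsto (fun n => (pt n).J) atTop (𝓝 (DiscPt.mk L (hLz.trans_lt hz)).J) := by
    rw [tendsto_iff_norm_sub_tendsto_zero]
    simp only [norm_J_sub]
    exact tendsto_iff_norm_sub_tendsto_zero.mp hL
  have h2 : Tendsto (fun n => (pt n).J) atTop (𝓝 z) := by
    rw [tendsto_iff_norm_sub_tendsto_zero]
    refine squeeze_zero (fun n => norm_nonneg _) (fun n => (norm_sub_rev _ _).trans_le (hd n)) ?_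
    simpa using (tendsto_pow_atTop_nhds_zero_of_lt_one (norm_nonneg z) hz).const_mul ‖z‖
  exact tendsto_nhds_unique h1 h2

omit [CompleteSpace Ω] in
theorem jqModC_ne_zero : (jqModC Ω : LaurentSeries Ω) ≠ 0 := fun h => by
  have := jqModC_mul_jinv Ω
  rw [h, zero_mul] at this
  exact zero_ne_one this

/-- `j - a` has a simple zero at `s` when `a = j(s)`. -/
theorem ordAt_jqModC_sub {a : Ω} (hs : s.val ≠ 0) (ha : a * s.J = 1) :
    (jqModC Ω - HahnSeries.C a ≠ 0) ∧ s.ordAt (jqModC Ω - HahnSeries.C a) = 1 := by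
  have hJ : s.J ≠ 0 := s.J_ne_zero hs
  set b : O Ω := s.eval (jinvSer Ω) with hb
  have hb0 : (b : Ω) = s.J := rfl
  obtain ⟨H, hH, hH0⟩ := s.exists_sub_factor
  have hHs : s.eval H ≠ 0 := by
    intro h0
    have h1 : IsUnit (constantCoeff H) := by
      rw [isUnit_O_iff]
      have h3 : ‖((constantCoeff H : O Ω) : Ω) - 1‖ < ‖(1 : Ω)‖ := by
        rw [norm_one]; exact hH0.trans_lt s.norm_lt
      have := IsUltrametricDist.norm_add_eq_max_of_norm_ne_norm h3.ne
      rwa [sub_add_cancel, max_eq_right h3.le, norm_one] at this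
    have := s.norm_eval_of_unit h1
    rw [h0] at this
    simp at this
  have hden : C b * jinvSer Ω ≠ 0 := mul_ne_zero (fun h0 => hJ <| by
    rw [← hb0, show b = 0 by simpa using congrArg constantCoeff h0]; rfl) (jinvSer_ne_zero Ω)
  have e : (jqModC Ω - HahnSeries.C a) * toL (C b * jinvSer Ω) = toL (-(s.lin * H)) := by
    rw [← hH, ← hb, map_neg, map_sub, map_mul, toL_C, hb0, sub_mul, mul_left_comm, jqModC_mul_jinv,
      ← mul_assoc, ← map_mul, ha, map_one, one_mul, mul_one]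
    ring
  have hnum : -(s.lin * H) ≠ 0 :=
    neg_ne_zero.mpr (mul_ne_zero s.lin_ne_zero fun h0 => hHs (by rw [h0, map_zero]))
  have hne : jqModC Ω - HahnSeries.C a ≠ 0 := fun h0 => by
    rw [h0, zero_mul] at e
    exact toL_ne_zero hnum e.symm
  refine ⟨hne, ?_⟩
  rw [s.ordAt_eq hne hden e, s.ordNat_eq (G := -(s.lin * H)) (n := 1) (U := -H)
    (by rw [map_neg]; exact neg_ne_zero.mpr hHs) (by ring),
    s.ordNat_of_eval_ne_zero (G := C b * jinvSer Ω)]
  · simp
  · rw [map_mul, eval_C, ← hb]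
    exact mul_ne_zero (fun h0 => hJ (by rw [← hb0, h0]; rfl))
      (fun h0 => hJ (by rw [← hb0, h0]; rfl))

/-- `j(q^l) - a` has a simple zero at the `l`-th roots of the point where `j = a`. -/
theorem ordAt_qExpand_jqModC_sub {a : Ω} (hs : s.val ≠ 0) (l : ℕ) [NeZero l] (hlΩ : (l : Ω) ≠ 0)
    (ha : a * (s.powPt l).J = 1) :
    (qExpand Ω l (jqModC Ω) - HahnSeries.C a ≠ 0) ∧
      s.ordAt (qExpand Ω l (jqModC Ω) - HahnSeries.C a) = 1 := by
  have hs' : (s.powPt l).val ≠ 0 := pow_ne_zero l hs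
  obtain ⟨hne, hord⟩ := (s.powPt l).ordAt_jqModC_sub hs' ha
  have e : qExpand Ω l (jqModC Ω) - HahnSeries.C a = qExpand Ω l (jqModC Ω - HahnSeries.C a) := by
    rw [map_sub, qExpand_C]
  rw [e]
  exact ⟨(map_ne_zero_iff _ (qExpand_injective l)).mpr hne, by
    rw [s.ordAt_qExpand hs l hlΩ ((merField Ω).sub_mem (jqModC_mem Ω) (C_mem a)) hne, hord]⟩

theorem ordAt_jqModC (hs : s.val ≠ 0) : s.ordAt (jqModC Ω) = 0 := by
  have hJ : s.eval (jinvSer Ω) ≠ 0 := fun h => s.J_ne_zero hs (congrArg Subtype.val h)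
  rw [s.ordAt_eq jqModC_ne_zero (jinvSer_ne_zero Ω) (a := 1)
    (by rw [map_one, jqModC_mul_jinv]), s.ordNat_of_eval_ne_zero hJ,
    s.ordNat_of_eval_ne_zero (G := 1) (by simp)]
  rfl

omit [IsUltrametricDist Ω] [CompleteSpace Ω] in
theorem jqModC_sub_ne_zero (a : Ω) : jqModC Ω - HahnSeries.C a ≠ 0 := by
  intro h
  have h1 : (jqModC Ω - HahnSeries.C a).coeff (-1) = 0 := by rw [h, HahnSeries.coeff_zero]
  rw [HahnSeries.coeff_sub, HahnSeries.C_apply, HahnSeries.coeff_single_of_ne (by norm_num),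
    sub_zero] at h1
  rw [jqModC, HahnSeries.coeff_single_mul, one_mul, show (-1 : ℤ) - -1 = ((0 : ℕ) : ℤ) by norm_num,
    HahnSeries.ofPowerSeries_apply_coeff] at h1
  simp at h1

omit [IsUltrametricDist Ω] [CompleteSpace Ω] in
theorem qExpand_jqModC_sub_ne_zero (l : ℕ) [NeZero l] (a : Ω) :
    qExpand Ω l (jqModC Ω) - HahnSeries.C a ≠ 0 := by
  rw [← qExpand_C (N := l), ← map_sub]
  exact (map_ne_zero_iff _ (qExpand_injective l)).mpr (jqModC_sub_ne_zero a)

/-- Conversely, `j - a` vanishes at `s` only if `a = j(s)`. -/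
theorem eq_of_ordAt_pos (hs : s.val ≠ 0) {a : Ω}
    (h : 0 < s.ordAt (jqModC Ω - HahnSeries.C a)) : a * s.J = 1 := by
  by_contra hne
  obtain ⟨u, hu, hua⟩ : ∃ u : O Ω, (u : Ω) ≠ 0 ∧ ‖(u : Ω) * a‖ ≤ 1 := by
    rcases le_or_gt ‖a‖ 1 with ha | ha
    · exact ⟨1, by simp, by simpa using ha⟩
    · have ha0 : a ≠ 0 := fun h0 => by rw [h0, norm_zero] at ha; linarith
      refine ⟨⟨a⁻¹, ?_⟩, inv_ne_zero ha0, le_of_eq ?_⟩
      · rw [mem_O, norm_inv]; exact inv_le_one_of_one_le₀ ha.le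
      · show ‖a⁻¹ * a‖ = 1
        rw [inv_mul_cancel₀ ha0, norm_one]
  set w : O Ω := ⟨(u : Ω) * a, hua⟩ with hw
  have hJ : (s.eval (jinvSer Ω) : Ω) = s.J := rfl
  have hnum : s.eval (C u - C w * jinvSer Ω) ≠ 0 := by
    intro h0
    have h1 : (u : Ω) - (u : Ω) * a * s.J = 0 := by
      rw [← hJ]
      have := congrArg Subtype.val h0
      rw [map_sub, map_mul, eval_C, eval_C] at this
      exact this
    exact mul_ne_zero hu (sub_ne_zero.mpr (Ne.symm hne)) (by rw [← h1]; ring)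
  have hden : s.eval (C u * jinvSer Ω) ≠ 0 := by
    rw [map_mul, eval_C]
    exact mul_ne_zero (fun h0 => hu (by rw [h0]; rfl))
        (fun h0 => s.J_ne_zero hs (congrArg Subtype.val h0))
  have e : (jqModC Ω - HahnSeries.C a) * toL (C u * jinvSer Ω) = toL (C u - C w * jinvSer Ω) := by
    rw [map_sub, map_mul, map_mul, toL_C, toL_C, show ((w : O Ω) : Ω) = (u : Ω) * a from rfl,
      map_mul HahnSeries.C, sub_mul, mul_left_comm, jqModC_mul_jinv]
    ring
  rw [s.ordAt_eq (jqModC_sub_ne_zero a) (fun h0 => hden (by rw [h0, map_zero])) e,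
    s.ordNat_of_eval_ne_zero hnum, s.ordNat_of_eval_ne_zero hden] at h
  simp at h

theorem eq_of_ordAt_qExpand_pos (hs : s.val ≠ 0) (l : ℕ) [NeZero l] (hlΩ : (l : Ω) ≠ 0) {a : Ω}
    (h : 0 < s.ordAt (qExpand Ω l (jqModC Ω) - HahnSeries.C a)) : a * (s.powPt l).J = 1 := by
  rw [← qExpand_C (N := l), ← map_sub, s.ordAt_qExpand hs l hlΩ
    ((merField Ω).sub_mem (jqModC_mem Ω) (C_mem a)) (jqModC_sub_ne_zero a)] at h
  exact (s.powPt l).eq_of_ordAt_pos (pow_ne_zero l hs) h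

end DiscPt

end Fermat.Agent.Mazur.Disc
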