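import Fermat.Agent.FF.Modular
import Fermat.Agent.FF.Places
import Fermat.Agent.Mazur.Cusp
import Fermat.Agent.Mazur.Disc.Jinv
import Fermat.Agent.Mazur.Disc.Swap
import Fermat.Agent.X0.IntVal

/-!
# Places of `X₀(M)` given by points of the punctured disc and by cusps

A homomorphism `φ` from the function field to `ℚ̄((q))` and a point `s` of the disc give a place:
the vanishing order at `s` of the series.
-/

noncomputable section

open ModularCurve AlgebraicCurve

namespace Fermat.Agent.Mazur.Disc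

local notation "Qbar" => AlgebraicClosure ℚ

variable {M : ℕ} [NeZero M] {Ω : Type*} [NormedField Ω] [IsUltrametricDist Ω] [CompleteSpace Ω]
  (ι : Qbar →+* Ω)

omit [IsUltrametricDist Ω] [CompleteSpace Ω] in
theorem coeffMap_coeffEmb_jq : coeffMap ι (coeffEmb Qbar jq) = jqModC Ω := by
  rw [coeffEmb, coeffMap_coeffMap, ← jqModC_rat, coeffMap_jqModC]

omit [IsUltrametricDist Ω] [CompleteSpace Ω] in
theorem coeffMap_qExpand_coeffEmb_jq (e : ℕ) [NeZero e] :
    coeffMap ι (qExpand Qbar e (coeffEmb Qbar jq)) = qExpand Ω e (jqModC Ω) := by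
  rw [coeffMap_qExpand, coeffMap_coeffEmb_jq]

theorem coeffEmb_qExpand_jq (d : ℕ) [NeZero d] :
    coeffEmb Qbar (qExpand ℚ d jq) = qExpand Qbar d (coeffEmb Qbar jq) := by
  rw [coeffEmb, coeffMap_qExpand]

/-- The series over `Ω` attached to `φ`. -/
def ser (φ : modularFunctionFieldBar M →+* LaurentSeries Qbar) :
    modularFunctionFieldBar M →+* LaurentSeries Ω :=
  (coeffMap ι).comp φ

omit [NeZero M] [IsUltrametricDist Ω] [CompleteSpace Ω] in
theorem ser_apply (φ : modularFunctionFieldBar M →+* LaurentSeries Qbar)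
    (x : modularFunctionFieldBar M) : ser ι φ x = coeffMap ι (φ x) := rfl

/-- The expansion at the cusp `∞`. -/
def stdHom (M : ℕ) [NeZero M] : modularFunctionFieldBar M →+* LaurentSeries Qbar :=
  (modularFunctionFieldBar M).val.toRingHom

theorem stdHom_apply (x : modularFunctionFieldBar M) : stdHom M x = (x : LaurentSeries Qbar) := rfl

/-- Homomorphisms which are the identity on constants and land in quotients of bounded series. -/
structure Adm (φ : modularFunctionFieldBar M →+* LaurentSeries Qbar) : Prop where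
  map_const : ∀ c : Qbar, φ (algebraMap Qbar _ c) = HahnSeries.C c
  mem : ∀ x, ser ι φ x ∈ merField Ω

omit [NeZero M] [CompleteSpace Ω] in
theorem ser_const {φ : modularFunctionFieldBar M →+* LaurentSeries Qbar} (hφ : Adm ι φ) (c : Qbar) :
    ser ι φ (algebraMap Qbar _ c) = HahnSeries.C (ι c) := by
  rw [ser_apply, hφ.map_const, HahnSeries.C_apply, coeffMap_single, ← HahnSeries.C_apply]

omit [NeZero M] [IsUltrametricDist Ω] [CompleteSpace Ω] in
theorem ser_ne_zero (φ : modularFunctionFieldBar M →+* LaurentSeries Qbar)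
    {x : modularFunctionFieldBar M} (hx : x ≠ 0) : ser ι φ x ≠ 0 :=
  (map_ne_zero _).mpr hx

omit [CompleteSpace Ω] [NeZero M] in
/-- It suffices to check the expansions of the generators. -/
theorem adm_of_gens {φ : modularFunctionFieldBar M →+* LaurentSeries Qbar}
    (hC : ∀ c : Qbar, φ (algebraMap Qbar _ c) = HahnSeries.C c)
    (hj : ∀ (d : ℕ) [NeZero d] (hd : d ∣ M), ∃ (e : ℕ) (_ : NeZero e),
      φ ⟨coeffEmb Qbar (qExpand ℚ d jq),
          coeffEmb_mem_laurentBaseChange Qbar (jqd_mem_full M hd)⟩ =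
        qExpand Qbar e (coeffEmb Qbar jq)) : Adm ι φ := by
  refine ⟨hC, fun x => ?_⟩
  refine mem_of_expansions Qbar (P := (merField Ω).comap (ser ι φ)) (fun c => ?_)
    (fun d _ hd => ?_) x
  · show ser ι φ _ ∈ merField Ω
    rw [ser_apply, hC, HahnSeries.C_apply, coeffMap_single, ← HahnSeries.C_apply]
    exact C_mem _
  · show ser ι φ _ ∈ merField Ω
    obtain ⟨e, he, h⟩ := hj d hd
    rw [ser_apply, h, coeffMap_qExpand_coeffEmb_jq]
    exact qExpand_mem e (jqModC_mem Ω)

omit [CompleteSpace Ω] in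
theorem adm_stdHom : Adm ι (stdHom M) :=
  adm_of_gens ι (fun c => algebraMap_laurentSeries_eq_single _ c)
    fun d _ _ => ⟨d, inferInstance, coeffEmb_qExpand_jq d⟩

omit [CompleteSpace Ω] in
theorem adm_swap {N l : ℕ} [NeZero N] [hl : Fact l.Prime]
    {τ : modularFunctionFieldBar (N * l) →+* LaurentSeries Qbar}
    (hC : ∀ c : Qbar, τ (algebraMap Qbar _ c) = HahnSeries.C c)
    (hα : ∀ x, τ (heckeAlphaBar Qbar N l x) = qExpand Qbar l (x : LaurentSeries Qbar))
    (hβ : ∀ x, τ (heckeBetaBar Qbar N l x) = (x : LaurentSeries Qbar)) : Adm ι τ := by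
  refine adm_of_gens ι hC fun d _ hdvd => ?_
  by_cases hld : l ∣ d
  · obtain ⟨d', rfl⟩ := hld
    have : NeZero d' := ⟨fun h => NeZero.ne (l * d') (by rw [h, mul_zero])⟩
    have hd' : d' ∣ N := Nat.dvd_of_mul_dvd_mul_left hl.out.pos (by rwa [mul_comm N l] at hdvd)
    refine ⟨d', inferInstance, ?_⟩
    rw [← coeffEmb_qExpand_jq]
    refine Eq.trans (congrArg τ (Subtype.ext ?_)) (hβ ⟨coeffEmb Qbar (qExpand ℚ d' jq),
      coeffEmb_mem_laurentBaseChange Qbar (jqd_mem_full N hd')⟩)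
    show coeffEmb Qbar (qExpand ℚ (l * d') jq) = qExpand Qbar l (coeffEmb Qbar (qExpand ℚ d' jq))
    rw [coeffEmb, coeffMap_qExpand, coeffMap_qExpand, qExpand_qExpand]
  · have hd' : d ∣ N := Nat.Coprime.dvd_of_dvd_mul_right
      (Nat.coprime_comm.mp ((Nat.Prime.coprime_iff_not_dvd hl.out).mpr hld)) hdvd
    refine ⟨l * d, inferInstance, ?_⟩
    refine ((congrArg τ (Subtype.ext rfl)).trans (hα ⟨coeffEmb Qbar (qExpand ℚ d jq),
      coeffEmb_mem_laurentBaseChange Qbar (jqd_mem_full N hd')⟩)).trans ?_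
    show qExpand Qbar l (coeffEmb Qbar (qExpand ℚ d jq)) = _
    rw [coeffEmb_qExpand_jq, qExpand_qExpand]

omit [CompleteSpace Ω] in
theorem adm_fricke {p : ℕ} [Fact p.Prime] {τ : modularFunctionFieldBar p →+* LaurentSeries Qbar}
    (hC : ∀ a, τ (algebraMap Qbar _ a) = HahnSeries.C a)
    (hj : τ (jBar p) = qExpand Qbar p (coeffEmb Qbar jq))
    (hjN : τ (jNBar p) = coeffEmb Qbar jq) : Adm ι τ := by
  refine adm_of_gens ι hC fun d _ hdvd => ?_
  rcases (Nat.dvd_prime Fact.out).mp hdvd with rfl | rfl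
  · refine ⟨p, inferInstance, Eq.trans (congrArg τ (Subtype.ext ?_)) hj⟩
    show coeffEmb Qbar (qExpand ℚ 1 jq) = coeffEmb Qbar jq
    rw [qExpand_one_apply]
  · refine ⟨1, inferInstance, ?_⟩
    rw [qExpand_one_apply]
    exact hjN

/-- `v` is the place of `φ` at the point `s`. -/
def IsPoint (φ : modularFunctionFieldBar M →+* LaurentSeries Qbar) (s : DiscPt Ω)
    (v : XPlace M) : Prop :=
  ∀ f : modularFunctionFieldBar M, f ≠ 0 → v.ord f = s.ordAt (ser ι φ f)

variable {φ : modularFunctionFieldBar M →+* LaurentSeries Qbar} {s : DiscPt Ω} {v w : XPlace M}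

omit [NeZero M] in
theorem IsPoint.unique (hv : IsPoint ι φ s v) (hw : IsPoint ι φ s w) : v = w :=
  FF.place_ext fun f => by
    rcases eq_or_ne f 0 with rfl | hf
    · simp
    · rw [hv f hf, hw f hf]

/-- The valuation of `φ` at `s`. -/
def intVal (hφ : Adm ι φ) (s : DiscPt Ω) : X0.IntVal Qbar (modularFunctionFieldBar M) where
  ord f := s.ordAt (ser ι φ f)
  map_mul hf hg := by
    rw [map_mul]
    exact s.ordAt_mul (hφ.mem _) (hφ.mem _) (ser_ne_zero ι φ hf) (ser_ne_zero ι φ hg)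
  map_add hf hg hfg := by
    rw [map_add]
    exact s.ordAt_add (hφ.mem _) (hφ.mem _) (ser_ne_zero ι φ hf) (ser_ne_zero ι φ hg)
      (by rw [← map_add]; exact ser_ne_zero ι φ hfg)
  map_const hc := by
    rw [ser_const ι hφ]
    exact s.ordAt_C ((map_ne_zero _).mpr hc)

omit [NeZero M] in
theorem exists_isPoint (hφ : Adm ι φ) {f : modularFunctionFieldBar M} (hf : f ≠ 0)
    (h1 : s.ordAt (ser ι φ f) = 1) : ∃ v : XPlace M, IsPoint ι φ s v := by
  have hne : ∃ g, g ≠ 0 ∧ (intVal ι hφ s).ord g ≠ 0 :=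
    ⟨f, hf, by show s.ordAt _ ≠ 0; rw [h1]; exact one_ne_zero⟩
  obtain ⟨k, -, hk⟩ := (intVal ι hφ s).exists_ord_eq_mul hne
  refine ⟨(intVal ι hφ s).place hne, fun g hg => ?_⟩
  have hk1 : (k : ℤ) = 1 := by
    refine Int.eq_one_of_mul_eq_one_right (by positivity) ((hk f hf).symm.trans ?_)
    exact h1
  have := hk g hg
  rw [hk1, one_mul] at this
  exact this.symm

omit [IsUltrametricDist Ω] [CompleteSpace Ω] in
theorem isPoint_powPt_one : s.powPt 1 = s := by
  cases s
  simp [DiscPt.powPt]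

omit [NeZero M] [CompleteSpace Ω] in
theorem ser_sub_const (hφ : Adm ι φ) {x : modularFunctionFieldBar M} {e : ℕ} [NeZero e]
    (hx : φ x = qExpand Qbar e (coeffEmb Qbar jq)) (a : Qbar) :
    ser ι φ (x - algebraMap Qbar _ a) = qExpand Ω e (jqModC Ω) - HahnSeries.C (ι a) := by
  rw [map_sub, ser_const ι hφ, ser_apply, hx, coeffMap_qExpand_coeffEmb_jq]

variable [CharZero Ω]

omit [IsUltrametricDist Ω] [CompleteSpace Ω] in
theorem natCast_omega_ne_zero (e : ℕ) [NeZero e] : (e : Ω) ≠ 0 := Nat.cast_ne_zero.mpr (NeZero.ne e)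

omit [NeZero M] in
/-- `x - a` has a simple zero at `s` if `x ↦ j(q^e)` and `a = j(s^e)`. -/
theorem ordAt_sub_const (hφ : Adm ι φ) (hs : s.val ≠ 0) {x : modularFunctionFieldBar M} {e : ℕ}
    [NeZero e] (hx : φ x = qExpand Qbar e (coeffEmb Qbar jq)) {a : Qbar}
    (ha : ι a * (s.powPt e).J = 1) :
    x - algebraMap Qbar _ a ≠ 0 ∧ s.ordAt (ser ι φ (x - algebraMap Qbar _ a)) = 1 := by
  obtain ⟨hne, h1⟩ := s.ordAt_qExpand_jqModC_sub hs e (natCast_omega_ne_zero e) ha
  rw [ser_sub_const ι hφ hx]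
  exact ⟨fun h0 => hne (by rw [← ser_sub_const ι hφ hx, h0, map_zero]), h1⟩

omit [NeZero M] in
theorem exists_isPoint_of_value (hφ : Adm ι φ) (hs : s.val ≠ 0) {x : modularFunctionFieldBar M}
    {e : ℕ} [NeZero e] (hx : φ x = qExpand Qbar e (coeffEmb Qbar jq)) {a : Qbar}
    (ha : ι a * (s.powPt e).J = 1) : ∃ v : XPlace M, IsPoint ι φ s v :=
  exists_isPoint ι hφ (ordAt_sub_const ι hφ hs hx ha).1 (ordAt_sub_const ι hφ hs hx ha).2

omit [NeZero M] in
theorem IsPoint.ord_sub_const (hv : IsPoint ι φ s v) (hφ : Adm ι φ) (hs : s.val ≠ 0)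
    {x : modularFunctionFieldBar M} {e : ℕ}
    [NeZero e] (hx : φ x = qExpand Qbar e (coeffEmb Qbar jq)) {a : Qbar}
    (ha : ι a * (s.powPt e).J = 1) : v.ord (x - algebraMap Qbar _ a) = 1 := by
  rw [hv _ (ordAt_sub_const ι hφ hs hx ha).1]
  exact (ordAt_sub_const ι hφ hs hx ha).2

/-- A function with expansion `j(q^e)` takes the value `j(s^e)` at the point `s`. -/
theorem IsPoint.exists_value (hv : IsPoint ι φ s v) (hφ : Adm ι φ) (hs : s.val ≠ 0)
    {x : modularFunctionFieldBar M} {e : ℕ} [NeZero e]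
    (hx : φ x = qExpand Qbar e (coeffEmb Qbar jq)) :
    ∃ a : Qbar, ι a * (s.powPt e).J = 1 ∧ v.ord (x - algebraMap Qbar _ a) = 1 := by
  have hse : (s.powPt e).val ≠ 0 := pow_ne_zero e hs
  have hx0 : x ≠ 0 := fun h => by
    have h1 := congrArg (coeffMap ι) hx
    rw [h, map_zero, map_zero, coeffMap_qExpand_coeffEmb_jq] at h1
    exact DiscPt.jqModC_ne_zero ((map_eq_zero_iff _ (qExpand_injective e)).mp h1.symm)
  have h0 : v.ord x = 0 := by
    rw [hv x hx0, ser_apply, hx, coeffMap_qExpand_coeffEmb_jq,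
      s.ordAt_qExpand hs e (natCast_omega_ne_zero e) (jqModC_mem Ω) DiscPt.jqModC_ne_zero,
      (s.powPt e).ordAt_jqModC hse]
  obtain ⟨a, ha⟩ := FF.exists_const v h0.ge
  have hne : x - algebraMap Qbar _ a ≠ 0 := fun h => by
    have h1 := congrArg (ser ι φ) h
    rw [ser_sub_const ι hφ hx, map_zero] at h1
    exact DiscPt.qExpand_jqModC_sub_ne_zero e (ι a) h1
  have hJ : ι a * (s.powPt e).J = 1 := by
    have h1 := ha.resolve_left hne
    rw [hv _ hne, ser_sub_const ι hφ hx] at h1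
    exact s.eq_of_ordAt_qExpand_pos hs e (natCast_omega_ne_zero e) h1
  exact ⟨a, hJ, hv.ord_sub_const ι hφ hs hx hJ⟩

omit [NeZero M] [CharZero Ω] in
/-- Restriction of a point: ramification one and the point with the composite expansion. -/
theorem IsPoint.restrictAlong {M' : ℕ}
    (ψ : modularFunctionFieldBar M →ₐ[Qbar] modularFunctionFieldBar M')
    (hψ : ψ.toRingHom.IsIntegral) {φ' : modularFunctionFieldBar M' →+* LaurentSeries Qbar}
    {t : DiscPt Ω} {u : XPlace M'} (hu : IsPoint ι φ' t u)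
    (hcomp : ∀ f, f ≠ 0 → t.ordAt (ser ι φ' (ψ f)) = s.ordAt (ser ι φ f))
    {f₁ : modularFunctionFieldBar M} (hf₁ : f₁ ≠ 0) (h1 : s.ordAt (ser ι φ f₁) = 1) :
    IsPoint ι φ s (u.restrictAlong ψ hψ) ∧ Place.ramificationIndexAlong ψ u = 1 := by
  have key : ∀ f, f ≠ 0 →
      s.ordAt (ser ι φ f) = (Place.ramificationIndexAlong ψ u : ℤ) * (u.restrictAlong ψ hψ).ord f :=
    fun f hf => by
      rw [← hcomp f hf, ← hu _ ((map_ne_zero ψ).mpr hf), Place.ord_restrictAlong ψ hψ]
  have he : Place.ramificationIndexAlong ψ u = 1 := by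
    have h := key f₁ hf₁
    rw [h1] at h
    exact_mod_cast Int.eq_one_of_mul_eq_one_right (Int.natCast_nonneg _) h.symm
  exact ⟨fun f hf => by rw [key f hf, he, Nat.cast_one, one_mul], he⟩

/-- `v` is the cusp of `φ`. -/
def IsCusp (φ : modularFunctionFieldBar M →+* LaurentSeries Qbar) (v : XPlace M) : Prop :=
  ∀ f : modularFunctionFieldBar M, f ≠ 0 → v.ord f = (φ f).order

omit [NeZero M] in
theorem IsCusp.unique (hv : IsCusp φ v) (hw : IsCusp φ w) : v = w :=
  FF.place_ext fun f => by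
    rcases eq_or_ne f 0 with rfl | hf
    · simp
    · rw [hv f hf, hw f hf]

theorem order_coeffEmb_jq : (coeffEmb Qbar jq).order = -1 := order_coe_jBar 1

theorem order_qExpand {R : Type*} [CommRing R] (e : ℕ) [NeZero e] (x : LaurentSeries R) :
    (qExpand R e x).order = (e : ℤ) * x.order := by
  rcases eq_or_ne x 0 with rfl | hx
  · simp
  have he : (0 : ℤ) < e := by exact_mod_cast NeZero.pos e
  have hne : qExpand R e x ≠ 0 := (map_ne_zero_iff _ (qExpand_injective e)).mpr hx
  refine le_antisymm (HahnSeries.order_le_of_coeff_ne_zero ?_) ?_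
  · rw [qExpand_coeff_mul]
    exact fun h => hx (HahnSeries.coeff_order_eq_zero.mp h)
  · by_contra hlt
    rw [not_le] at hlt
    refine hne (HahnSeries.coeff_order_eq_zero.mp ?_)
    by_cases hd : (e : ℤ) ∣ (qExpand R e x).order
    · obtain ⟨k, hk⟩ := hd
      rw [hk, qExpand_coeff_mul]
      rw [hk] at hlt
      exact HahnSeries.coeff_eq_zero_of_lt_order (lt_of_mul_lt_mul_left hlt he.le)
    · exact qExpand_coeff_of_not_dvd e x hd

omit [NeZero M] in
/-- A homomorphism sending some function to `j(q)` gives a place, its cusp. -/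
theorem exists_isCusp (hC : ∀ c : Qbar, φ (algebraMap Qbar _ c) = HahnSeries.C c)
    {x : modularFunctionFieldBar M} (hx : φ x = coeffEmb Qbar jq) :
    ∃ v : XPlace M, IsCusp φ v := by
  let u : X0.IntVal Qbar (modularFunctionFieldBar M) :=
    { ord := fun f => (φ f).order
      map_mul := fun hf hg => by
        rw [map_mul, HahnSeries.order_mul ((map_ne_zero φ).mpr hf) ((map_ne_zero φ).mpr hg)]
      map_add := fun hf hg hfg => by
        rw [map_add]
        exact HahnSeries.min_order_le_order_add (by rw [← map_add]; exact (map_ne_zero φ).mpr hfg)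
      map_const := fun {c} hc => by
        show (φ (algebraMap Qbar _ c)).order = 0
        rw [hC, HahnSeries.C_apply, HahnSeries.order_single hc] }
  have hord : u.ord x = -1 := by
    show (φ x).order = -1
    rw [hx]
    exact order_coeffEmb_jq
  have hx0 : x ≠ 0 := fun h => by rw [h] at hord; simp [u] at hord
  have hne : ∃ g, g ≠ 0 ∧ u.ord g ≠ 0 := ⟨x, hx0, by rw [hord]; norm_num⟩
  obtain ⟨k, -, hk⟩ := u.exists_ord_eq_mul hne
  refine ⟨u.place hne, fun g hg => ?_⟩
  have h := hk x hx0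
  rw [hord] at h
  have hk1 : (k : ℤ) = 1 :=
    Int.eq_one_of_mul_eq_one_right (by positivity) (b := -(u.place hne).ord x) (by linarith)
  have := hk g hg
  rw [hk1, one_mul] at this
  exact this.symm

theorem isInfty_iff_isCusp {O : XPlace M} : IsInfty M O ↔ IsCusp (stdHom M) O := Iff.rfl

end Fermat.Agent.Mazur.Disc
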