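import Mathlib.RingTheory.RootsOfUnity.AlgebraicallyClosed
import Fermat.Agent.FF.Degree
import Fermat.Agent.Grp.Index
import Fermat.Agent.Hecke.Inputs
import Fermat.Agent.Mazur.Disc.Points

/-!
# The fibre of `j` over a point of the disc, and the poles of `j`, on `X₀(p)`
-/

noncomputable section

open ModularCurve AlgebraicCurve
open scoped IntermediateField

namespace Fermat.Agent.Mazur.Disc

local notation "Qbar" => AlgebraicClosure ℚ

/-- If the zeros in `S` already have total order the degree, there is no other zero. -/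
theorem mem_of_finrank_le {K F : Type*} [Field K] [Field F] [Algebra K F]
    [FF.IsFunctionField K F] {x : F} (hx : Transcendental K x) (S : Finset (Place K F))
    (hS : ∀ v ∈ S, 0 < v.ord x)
    (hsum : Module.finrank K⟮x⟯ F ≤ ∑ v ∈ S, (v.ord x).toNat) {v : Place K F} (hv : 0 < v.ord x) :
    v ∈ S := by
  classical
  by_contra h
  have h1 := FF.sum_ord_le_finrank hx (insert v S) fun w hw => by
    rcases Finset.mem_insert.mp hw with rfl | hw
    exacts [hv, hS w hw]
  rw [Finset.sum_insert h] at h1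
  omega

variable {p : ℕ} [hp : Fact p.Prime]

/-- The Fricke homomorphism of level `p`. -/
structure IsFricke (τ : modularFunctionFieldBar p →+* LaurentSeries Qbar) : Prop where
  map_const : ∀ a, τ (algebraMap Qbar _ a) = HahnSeries.C a
  map_j : τ (jBar p) = qExpand Qbar p (coeffEmb Qbar jq)
  map_jN : τ (jNBar p) = coeffEmb Qbar jq

theorem exists_isFricke (p : ℕ) [Fact p.Prime] :
    ∃ τ : modularFunctionFieldBar p →+* LaurentSeries Qbar, IsFricke τ := by
  obtain ⟨τ, h1, h2, h3⟩ := exists_frickeHom p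
  exact ⟨τ, h1, h2, h3⟩

theorem stdHom_jBar : stdHom p (jBar p) = qExpand Qbar 1 (coeffEmb Qbar jq) := by
  rw [qExpand_one_apply]; rfl

theorem stdHom_jNBar : stdHom p (jNBar p) = qExpand Qbar p (coeffEmb Qbar jq) :=
  coeffEmb_qExpand_jq p

theorem finrank_jBar :
    Module.finrank Qbar⟮jBar p⟯ (modularFunctionFieldBar p) = p + 1 := by
  have h : jBar p = Hecke.jElt Qbar p := Subtype.ext <| by
    show coeffEmb Qbar jq = jqModC Qbar
    rw [coeffEmb, ← jqModC_rat, coeffMap_jqModC]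
  rw [h, Hecke.finrank_over_j, Grp.index_Gamma0_eq]
  have := Grp.dedekindPsi_prime_pow hp.out one_pos
  rw [pow_one] at this
  rw [this]
  simp

theorem order_stdHom_jBar : (stdHom p (jBar p)).order = -1 := by
  show (coeffEmb Qbar jq).order = -1
  exact order_coeffEmb_jq

theorem transcendental_jBar : Transcendental Qbar (jBar p) :=
  FF.transcendental_of_ord_ne_zero (inftyPlace p) (by
    rw [isInfty_inftyPlace p _ (jBar_ne_zero p), order_coe_jBar]; norm_num)

variable {τ : modularFunctionFieldBar p →+* LaurentSeries Qbar} (hτ : IsFricke τ)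
include hτ

theorem IsFricke.exists_cusp : ∃ v : XPlace p, IsCusp τ v :=
  exists_isCusp hτ.map_const hτ.map_jN

/-- The poles of `j` are the two cusps. -/
theorem isCusp_of_ord_jBar_neg {v : XPlace p} (hv : v.ord (jBar p) < 0) :
    IsCusp (stdHom p) v ∨ IsCusp τ v := by
  classical
  obtain ⟨O, hO⟩ := exists_isCusp (φ := stdHom p)
    (fun c => algebraMap_laurentSeries_eq_single _ c) (x := jBar p) rfl
  obtain ⟨O', hO'⟩ := hτ.exists_cusp
  have hj0 : jBar p ≠ 0 := fun h => by rw [h] at hv; simp at hv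
  have h1 : O.ord (jBar p) = -1 := by rw [hO _ hj0, order_stdHom_jBar]
  have h2 : O'.ord (jBar p) = -(p : ℤ) := by
    rw [hO' _ hj0, hτ.map_j, order_qExpand, order_coeffEmb_jq]
    ring
  have hne : O ≠ O' := fun h => by
    rw [h, h2] at h1
    have := hp.out.two_le
    omega
  have hmem := mem_of_finrank_le (x := (jBar p)⁻¹) (FF.transcendental_inv transcendental_jBar)
    {O, O'} (fun w hw => by
      rw [w.ord_inv]
      rcases Finset.mem_insert.mp hw with rfl | hw
      · rw [h1]; norm_num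
      · rw [Finset.mem_singleton.mp hw, h2, neg_neg]; exact_mod_cast hp.out.pos)
    (by
      rw [FF.finrank_adjoin_inv, finrank_jBar, Finset.sum_pair hne, O.ord_inv, O'.ord_inv, h1, h2]
      simp [add_comm])
    (v := v) (by rw [v.ord_inv]; omega)
  rcases Finset.mem_insert.mp hmem with rfl | h
  · exact Or.inl hO
  · exact Or.inr (Finset.mem_singleton.mp h ▸ hO')

variable {Ω : Type*} [NormedField Ω] [IsUltrametricDist Ω] [CompleteSpace Ω] [CharZero Ω]
  [IsAlgClosed Ω] {ι : Qbar →+* Ω} {s : DiscPt Ω}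

omit [IsUltrametricDist Ω] [CompleteSpace Ω] hτ in
theorem exists_root_finset (hs : s.val ≠ 0) (n : ℕ) [hn : NeZero n] :
    ∃ R : Finset (DiscPt Ω), R.card = n ∧ ∀ r : DiscPt Ω, r ∈ R ↔ r.val ^ n = s.val := by
  classical
  obtain ⟨ζ, hζ⟩ := HasEnoughRootsOfUnity.exists_primitiveRoot Ω n
  have hroot : ∀ x : Ω, x ^ n = s.val → ‖x‖ < 1 := fun x hx =>
    (pow_lt_one_iff_of_nonneg (norm_nonneg x) hn.out).mp (by rw [← norm_pow, hx]; exact s.norm_lt)
  obtain ⟨y, hy⟩ := IsAlgClosed.exists_pow_nat_eq s.val (NeZero.pos n)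
  let T : Finset Ω := (Polynomial.nthRoots n s.val).toFinset
  have hT : ∀ x : Ω, x ∈ T ↔ x ^ n = s.val := fun x => by
    rw [Multiset.mem_toFinset, Polynomial.mem_nthRoots (NeZero.pos n)]
  have hcard : T.card = n := by
    rw [Multiset.card_toFinset, Multiset.dedup_eq_self.mpr (hζ.nthRoots_nodup hs),
      hζ.card_nthRoots, if_pos ⟨y, hy⟩]
  refine ⟨T.attach.map ⟨fun x => ⟨x.1, hroot _ ((hT _).mp x.2)⟩, fun a b h =>
    Subtype.ext (congrArg DiscPt.val h)⟩, ?_, fun r => ?_⟩
  · rw [Finset.card_map, Finset.card_attach, hcard]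
  · constructor
    · intro hr
      obtain ⟨x, -, rfl⟩ := Finset.mem_map.mp hr
      exact (hT _).mp x.2
    · intro hr
      exact Finset.mem_map.mpr ⟨⟨r.val, (hT _).mpr hr⟩, Finset.mem_attach _ _, rfl⟩

omit [IsAlgClosed Ω] in
/-- A Fricke point over `j(s)`, at a `p`-th root of `s`. -/
theorem exists_point_fricke {a : Qbar} (ha : ι a * s.J = 1) (hs : s.val ≠ 0) {r : DiscPt Ω}
    (hr : r.val ^ p = s.val) :
    ∃ v : XPlace p, IsPoint ι τ r v ∧ v.ord (jBar p - algebraMap Qbar _ a) = 1 := by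
  have hr0 : r.val ≠ 0 := fun h => hs (by rw [← hr, h, zero_pow hp.out.ne_zero])
  have hrp : r.powPt p = s := by
    cases s
    simp only [DiscPt.powPt, DiscPt.mk.injEq]
    exact hr
  have ha' : ι a * (r.powPt p).J = 1 := by rw [hrp]; exact ha
  have hadm := adm_fricke ι hτ.map_const hτ.map_j hτ.map_jN
  obtain ⟨v, hv⟩ := exists_isPoint_of_value ι hadm hr0 hτ.map_j ha'
  exact ⟨v, hv, hv.ord_sub_const ι hadm hr0 hτ.map_j ha'⟩

omit [IsAlgClosed Ω] hτ in
/-- The point of `s` on `X₀(p)`. -/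
theorem exists_point_std {a : Qbar} (ha : ι a * s.J = 1) (hs : s.val ≠ 0) :
    ∃ v : XPlace p, IsPoint ι (stdHom p) s v ∧ v.ord (jBar p - algebraMap Qbar _ a) = 1 := by
  have ha' : ι a * (s.powPt 1).J = 1 := by rw [isPoint_powPt_one]; exact ha
  obtain ⟨v, hv⟩ := exists_isPoint_of_value ι (adm_stdHom ι) hs (stdHom_jBar (p := p)) ha'
  exact ⟨v, hv, hv.ord_sub_const ι (adm_stdHom ι) hs stdHom_jBar ha'⟩

omit hτ [IsAlgClosed Ω] in
/-- The value of `j_N` tells the point of a disc from its Fricke points. -/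
theorem jN_value_std {v : XPlace p} (hv : IsPoint ι (stdHom p) s v) (hs : s.val ≠ 0) {b : Qbar}
    (hb : 0 < v.ord (jNBar p - algebraMap Qbar _ b)) : ι b * (s.powPt p).J = 1 := by
  obtain ⟨b', hb', hord⟩ := hv.exists_value ι (adm_stdHom ι) hs stdHom_jNBar
  rwa [FF.const_unique v (Or.inr hb) (Or.inr (hord ▸ one_pos))]

omit [IsAlgClosed Ω] in
theorem jN_value_fricke {v : XPlace p} {r : DiscPt Ω} (hv : IsPoint ι τ r v) (hr : r.val ≠ 0)
    {b : Qbar} (hb : 0 < v.ord (jNBar p - algebraMap Qbar _ b)) : ι b * r.J = 1 := by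
  have hx : τ (jNBar p) = qExpand Qbar 1 (coeffEmb Qbar jq) := by
    rw [qExpand_one_apply]; exact hτ.map_jN
  obtain ⟨b', hb', hord⟩ := hv.exists_value ι
    (adm_fricke ι hτ.map_const hτ.map_j hτ.map_jN) hr hx
  rw [isPoint_powPt_one] at hb'
  rwa [FF.const_unique v (Or.inr hb) (Or.inr (hord ▸ one_pos))]

/-- The fibre of `j` over `j(s)`: the point of `s` and the Fricke points of its `p`-th roots. -/
theorem isPoint_of_ord_jBar_sub_pos {a : Qbar} (ha : ι a * s.J = 1) (hs : s.val ≠ 0) {v : XPlace p}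
    (hv : 0 < v.ord (jBar p - algebraMap Qbar _ a)) :
    IsPoint ι (stdHom p) s v ∨ ∃ r : DiscPt Ω, r.val ^ p = s.val ∧ IsPoint ι τ r v := by
  classical
  obtain ⟨R, hRc, hR⟩ := exists_root_finset hs p
  obtain ⟨P, hP, hP1⟩ := exists_point_std (p := p) ha hs
  choose W hW hW1 using fun r : R => exists_point_fricke hτ ha hs ((hR r.1).mp r.2)
  have hr0 : ∀ r : R, r.1.val ≠ 0 := fun r h =>
    hs (by rw [← (hR r.1).mp r.2, h, zero_pow hp.out.ne_zero])
  have hxN : τ (jNBar p) = qExpand Qbar 1 (coeffEmb Qbar jq) := by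
    rw [qExpand_one_apply]; exact hτ.map_jN
  have hval : ∀ r : R, ∃ b, ι b * r.1.J = 1 ∧ (W r).ord (jNBar p - algebraMap Qbar _ b) = 1 := by
    intro r
    obtain ⟨b, hb, hb1⟩ := (hW r).exists_value ι
      (adm_fricke ι hτ.map_const hτ.map_j hτ.map_jN) (hr0 r) hxN
    rw [isPoint_powPt_one] at hb
    exact ⟨b, hb, hb1⟩
  have hinj : Function.Injective W := by
    intro r r' h
    obtain ⟨b, hb, hb1⟩ := hval r
    rw [h] at hb1
    have hb' := jN_value_fricke hτ (hW r') (hr0 r') (hb1 ▸ one_pos)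
    have hbne : ι b ≠ 0 := left_ne_zero_of_mul_eq_one hb
    have := DiscPt.J_injective (mul_left_cancel₀ hbne (hb.trans hb'.symm))
    refine Subtype.ext ?_
    cases hr : r.1
    cases hr' : r'.1
    rw [hr, hr'] at this
    simp only [DiscPt.mk.injEq]
    exact this
  have hPW : ∀ r : R, W r ≠ P := by
    intro r h
    obtain ⟨b, hb, hb1⟩ := hval r
    rw [h] at hb1
    have hb' := jN_value_std hP hs (hb1 ▸ one_pos)
    have hbne : ι b ≠ 0 := left_ne_zero_of_mul_eq_one hb
    have h1 := DiscPt.J_injective (mul_left_cancel₀ hbne (hb.trans hb'.symm))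
    have h2 : ‖r.1.val‖ = ‖r.1.val‖ ^ (p * p) := by
      conv_lhs => rw [h1]
      show ‖s.val ^ p‖ = _
      rw [← (hR r.1).mp r.2, ← pow_mul, norm_pow]
    have h3 : ‖r.1.val‖ ^ (p * p) < ‖r.1.val‖ ^ 1 :=
      pow_lt_pow_right_of_lt_one₀ (norm_pos_iff.mpr (hr0 r)) r.1.norm_lt
        (by nlinarith [hp.out.two_le])
    rw [pow_one, ← h2] at h3
    exact lt_irrefl _ h3
  have htr := FF.transcendental_sub_const (transcendental_jBar (p := p)) a
  have hmem := mem_of_finrank_le htr (insert P (Finset.univ.image W)) (fun w hw => by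
      rcases Finset.mem_insert.mp hw with rfl | hw
      · rw [hP1]; exact one_pos
      · obtain ⟨r, -, rfl⟩ := Finset.mem_image.mp hw
        rw [hW1]; exact one_pos)
    (by
      rw [FF.adjoin_sub_const_eq, finrank_jBar, Finset.sum_insert (by simpa using hPW),
        Finset.sum_image hinj.injOn, hP1]
      simp [hW1, hRc, add_comm])
    hv
  rcases Finset.mem_insert.mp hmem with rfl | h
  · exact Or.inl hP
  · obtain ⟨r, -, rfl⟩ := Finset.mem_image.mp h
    exact Or.inr ⟨r.1, (hR r.1).mp r.2, hW r⟩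

omit hp hτ in
theorem exists_ord_pos_of_hasValue {v : XPlace p} {f : modularFunctionFieldBar p} {a : Qbar}
    (h : HasValue p v f a) (hf : f - algebraMap Qbar _ a ≠ 0) :
    0 < v.ord (f - algebraMap Qbar _ a) :=
  h.resolve_left fun h' => hf (sub_eq_zero.mpr h')

omit hτ in
theorem jBar_sub_ne_zero (a : Qbar) : jBar p - algebraMap Qbar _ a ≠ 0 := fun h =>
  transcendental_jBar (p := p) (by rw [sub_eq_zero.mp h]; exact isAlgebraic_algebraMap a)

/-- Points of `X₀(p)` near `∞` at a place over `ℓ` are points of the disc. -/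
theorem exists_isPoint_of_nearInfty {A : ValuationSubring Qbar} (hA : ∀ x, x ∈ A ↔ ‖ι x‖ ≤ 1)
    {x : XPlace p} (hx : NearInfty p A x) :
    ∃ s : DiscPt Ω, s.val ≠ 0 ∧ IsPoint ι (stdHom p) s x ∧
      ∃ a : Qbar, HasValue p x (jBar p) a ∧ ι a * s.J = 1 := by
  obtain ⟨a, b, ha, hb, haA, h1, h2⟩ := hx
  have haι : 1 < ‖ι a‖ := not_le.mp fun h => haA ((hA a).mpr h)
  have ha0 : ι a ≠ 0 := fun h => by rw [h, norm_zero] at haι; linarith
  obtain ⟨s, hs⟩ := DiscPt.exists_J_eq (z := (ι a)⁻¹) (by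
    rw [norm_inv]; exact inv_lt_one_of_one_lt₀ haι)
  have hsn : ‖s.val‖ = ‖ι a‖⁻¹ := by rw [← s.norm_J, hs, norm_inv]
  have hs0 : s.val ≠ 0 := norm_pos_iff.mp (by rw [hsn]; positivity)
  have haJ : ι a * s.J = 1 := by rw [hs, mul_inv_cancel₀ ha0]
  refine ⟨s, hs0, ?_, a, ha, haJ⟩
  have hpos := exists_ord_pos_of_hasValue ha (jBar_sub_ne_zero a)
  rcases isPoint_of_ord_jBar_sub_pos hτ haJ hs0 hpos with h | ⟨r, hr, h⟩
  · exact h
  exfalso
  have hr0 : r.val ≠ 0 := fun h0 => hs0 (by rw [← hr, h0, zero_pow hp.out.ne_zero])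
  have hbr : ι b * r.J = 1 := by
    refine jN_value_fricke hτ h hr0 (hb.resolve_left fun heq => ?_)
    have h3 : τ (jNBar p) = HahnSeries.C b := by rw [heq, hτ.map_const]
    have h4 := congrArg HahnSeries.order (hτ.map_jN.symm.trans h3)
    rw [order_coeffEmb_jq, HahnSeries.C_apply] at h4
    rcases eq_or_ne b 0 with rfl | hb0
    · simp at h4
    · rw [HahnSeries.order_single hb0] at h4; norm_num at h4
  have hbn : ‖ι b‖ = ‖r.val‖⁻¹ := by
    have := congrArg norm hbr
    rw [norm_mul, r.norm_J, norm_one] at this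
    exact eq_inv_of_mul_eq_one_left this
  have hb0 : ι b ≠ 0 := left_ne_zero_of_mul_eq_one hbr
  have hab : ‖ι b‖ = ‖ι a‖ ^ p := by
    have e1 := (hA _).mp h1
    have e2 := (hA _).mp h2
    rw [map_mul, map_inv₀, map_pow, norm_mul, norm_inv, norm_pow, ← div_eq_mul_inv,
      div_le_one (by positivity)] at e1
    rw [map_mul, map_inv₀, map_pow, norm_mul, norm_inv, norm_pow, ← div_eq_mul_inv,
      div_le_one (by positivity)] at e2
    exact le_antisymm e1 e2
  rw [hbn, show ‖ι a‖ = ‖s.val‖⁻¹ by rw [hsn, inv_inv], ← hr, norm_pow, inv_pow, inv_inj,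
    ← pow_mul] at hab
  have h3 : ‖r.val‖ ^ (p * p) < ‖r.val‖ ^ 1 :=
    pow_lt_pow_right_of_lt_one₀ (norm_pos_iff.mpr hr0) r.norm_lt (by nlinarith [hp.out.two_le])
  rw [pow_one, ← hab] at h3
  exact lt_irrefl _ h3

end Fermat.Agent.Mazur.Disc
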