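import Fermat.Agent.EichlerShimura.EmbeddingsMain
import Fermat.Agent.Hecke.Along
import Fermat.Agent.Mazur.Disc.Fibre
import Fermat.Agent.TwoComponent.ModelBase

/-!
# The Hecke correspondence on disc points and on the cusp `∞`

`T_l P_s = Σ_{r^l = s} P_r + P_{s^l}` and `T_l ∞ = (l + 1) ∞` as divisors.
-/

noncomputable section

open ModularCurve AlgebraicCurve
open scoped IntermediateField

namespace Fermat.Agent.Mazur.Disc

local notation "Qbar" => AlgebraicClosure ℚ

/-- The correspondence of a point, from enough places above it. -/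
theorem correspondence_single_eq {K F F' : Type*} [Field K] [Field F] [Field F'] [Algebra K F]
    [Algebra K F'] [IsAlgClosed K] [FF.IsFunctionField K F] [FF.IsFunctionField K F']
    (φ ψ : F →ₐ[K] F') (hφ : φ.toRingHom.IsIntegral) (hψ : ψ.toRingHom.IsIntegral) {v : Place K F}
    (S : Finset (Place K F')) (hS : ∀ W ∈ S, W.restrictAlong φ hφ = v)
    (hsum : finrankAlong K φ ≤ ∑ W ∈ S, W.ramificationIndexAlong φ) :
    Divisor.correspondence φ ψ hφ hψ (Finsupp.single v 1) =
      ∑ W ∈ S, Finsupp.single (W.restrictAlong ψ hψ) (W.ramificationIndexAlong φ : ℤ) := by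
  classical
  have hsub : S ⊆ Place.fiberAlong φ hφ v := fun W hW => Place.mem_fiberAlong.mpr (hS W hW)
  have hdeg := Divisor.degree_pullbackAlong φ hφ (Hecke.fundamentalIdentityAlong φ hφ)
    (Finsupp.single v 1)
  rw [Divisor.pullbackAlong_single, map_sum, Divisor.degree_single] at hdeg
  simp only [Divisor.degree_single, FF.place_deg_eq_one, Nat.cast_one, mul_one, one_mul] at hdeg
  have heq : S = Place.fiberAlong φ hφ v := by
    refine Finset.Subset.antisymm hsub fun W hW => ?_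
    by_contra hWS
    have h1 : ∑ W' ∈ insert W S, W'.ramificationIndexAlong φ ≤
        ∑ W' ∈ Place.fiberAlong φ hφ v, W'.ramificationIndexAlong φ :=
      Finset.sum_le_sum_of_subset (Finset.insert_subset hW hsub)
    rw [Finset.sum_insert hWS] at h1
    have h2 : 0 < W.ramificationIndexAlong φ := by
      let := algebraAlong φ
      have := isScalarTower_along φ
      have := isIntegral_along φ hφ
      exact W.ramificationIndex_pos
    have h3 : ∑ W' ∈ Place.fiberAlong φ hφ v, W'.ramificationIndexAlong φ = finrankAlong K φ := by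
      exact_mod_cast hdeg
    omega
  rw [Divisor.correspondence_apply, Divisor.pullbackAlong_single, map_sum, ← heq]
  refine Finset.sum_congr rfl fun W _ => ?_
  rw [Hecke.pushforwardAlong_single_one ψ hψ W (FF.place_deg_eq_one W), one_mul]

variable {p : ℕ} [hp : Fact p.Prime] {l : ℕ} [hl : Fact l.Prime]

omit hl in
/-- The degeneracy map `β : X₀(N l) → X₀(N)` has degree `l + 1`. -/
theorem finrankAlong_beta (N : ℕ) [NeZero N] (l : ℕ) [Fact l.Prime] (hlN : ¬ l ∣ N) :
    finrankAlong Qbar (heckeBetaBar Qbar N l) = l + 1 := by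
  have hα : finrankAlong Qbar (heckeAlphaBar Qbar N l) = l + 1 := by
    rw [Hecke.finrankAlong_alpha, EichlerShimura.relIndex_Gamma0_prime Fact.out hlN]
  have hjα : heckeAlphaBar Qbar N l (Hecke.jElt Qbar N) = TwoComponent.jOne N l := Subtype.ext <| by
    rw [coe_heckeAlphaBar]
    show jqModC Qbar = _
    rw [TwoComponent.jOne, TwoComponent.coe_jEl, Igusa.jv_one_eq_qExpand, qExpand_one_apply]
  have hjβ : heckeBetaBar Qbar N l (Hecke.jElt Qbar N) = TwoComponent.jQ N l := Subtype.ext <| by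
    rw [coe_heckeBetaBar]
    show qExpand Qbar l (jqModC Qbar) = _
    rw [TwoComponent.jQ, TwoComponent.coe_jEl, Igusa.jv_one_eq_qExpand]
  have hA := Hecke.finrank_adjoin_apply (heckeAlphaBar Qbar N l) (Hecke.jElt Qbar N)
  have hB := Hecke.finrank_adjoin_apply (heckeBetaBar Qbar N l) (Hecke.jElt Qbar N)
  rw [hjα] at hA
  rw [hjβ] at hB
  have e : Module.finrank Qbar⟮Hecke.jElt Qbar N⟯ (Hecke.X0Field Qbar N) *
      finrankAlong Qbar (heckeBetaBar Qbar N l) =
      Module.finrank Qbar⟮Hecke.jElt Qbar N⟯ (Hecke.X0Field Qbar N) *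
      finrankAlong Qbar (heckeAlphaBar Qbar N l) := by
    rw [← hA, ← hB]
    exact (TwoComponent.finrank_jQ N l).trans (TwoComponent.finrank_jOne N l).symm
  rw [← hα]
  refine Nat.eq_of_mul_eq_mul_left ?_ e
  rw [Hecke.finrank_over_j]
  exact Nat.pos_of_ne_zero Subgroup.FiniteIndex.index_ne_zero

theorem IsCusp.restrictAlong {M M' : ℕ}
    (ψ : modularFunctionFieldBar M →ₐ[Qbar] modularFunctionFieldBar M')
    (hψ : ψ.toRingHom.IsIntegral) {φ' : modularFunctionFieldBar M' →+* LaurentSeries Qbar}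
    {φ : modularFunctionFieldBar M →+* LaurentSeries Qbar} {u : XPlace M'} (hu : IsCusp φ' u)
    {e : ℕ} (he : 0 < e) (hcomp : ∀ f, f ≠ 0 → (φ' (ψ f)).order = (e : ℤ) * (φ f).order)
    {x : modularFunctionFieldBar M} (hx : x ≠ 0) (hx1 : (φ x).order = -1) :
    IsCusp φ (u.restrictAlong ψ hψ) ∧ Place.ramificationIndexAlong ψ u = e := by
  have key : ∀ f, f ≠ 0 → (Place.ramificationIndexAlong ψ u : ℤ) * (u.restrictAlong ψ hψ).ord f =
      (e : ℤ) * (φ f).order := fun f hf => by
    rw [← hcomp f hf, ← hu _ ((map_ne_zero ψ).mpr hf), Place.ord_restrictAlong ψ hψ]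
  obtain ⟨g, hg, hg1⟩ := Hecke.exists_ord_eq_one (u.restrictAlong ψ hψ)
  have h1 := key g hg
  have h2 := key x hx
  rw [hg1, mul_one] at h1
  rw [hx1, h1] at h2
  have h3 : (φ g).order * (u.restrictAlong ψ hψ).ord x = -1 := by
    refine mul_left_cancel₀ (a := (e : ℤ)) (by exact_mod_cast he.ne') ?_
    linarith
  have h4 : 0 ≤ (φ g).order := by nlinarith [Int.natCast_nonneg (Place.ramificationIndexAlong ψ u)]
  have h5 : (φ g).order = 1 :=
    Int.eq_one_of_mul_eq_one_right h4 (b := -(u.restrictAlong ψ hψ).ord x) (by linarith)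
  rw [h5, mul_one] at h1
  refine ⟨fun f hf => ?_, by exact_mod_cast h1⟩
  have h6 := key f hf
  rw [h1] at h6
  exact mul_left_cancel₀ (by exact_mod_cast he.ne') h6

/-- The correspondence `T_l` on divisors. -/
def corr (p l : ℕ) [Fact p.Prime] [Fact l.Prime] :
    Divisor Qbar (modularFunctionFieldBar p) →+ Divisor Qbar (modularFunctionFieldBar p) :=
  Divisor.correspondence (heckeBetaBar Qbar p l) (heckeAlphaBar Qbar p l)
    (Hecke.betaIntegral Qbar p l) (Hecke.alphaIntegral Qbar p l)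

/-- `T_l ∞ = (l + 1) ∞`. -/
theorem corr_infty (hlp : ¬ l ∣ p) {O : XPlace p} (hO : IsInfty p O) :
    corr p l (Finsupp.single O 1) = Finsupp.single O ((l : ℤ) + 1) := by
  classical
  obtain ⟨τ, hC, hα, hβ⟩ := exists_swapHom (N := p) (l := l) Qbar
    (IsAlgClosed.lift : Qbar →ₐ[ℚ] ℂ).toRingHom hlp
  obtain ⟨u, hu⟩ := exists_isCusp (φ := stdHom (p * l))
    (fun c => algebraMap_laurentSeries_eq_single _ c) (x := jBar (p * l)) rfl
  obtain ⟨u', hu'⟩ := exists_isCusp (φ := τ) hC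
    (x := heckeBetaBar Qbar p l (jBar p)) (hβ (jBar p))
  have hj : (stdHom p (jBar p)).order = -1 := order_stdHom_jBar
  have hj0 : jBar p ≠ 0 := jBar_ne_zero p
  obtain ⟨hb, eb⟩ := IsCusp.restrictAlong (φ := stdHom p) (heckeBetaBar Qbar p l)
    (Hecke.betaIntegral Qbar p l) hu hl.out.pos (fun f _ => by
      rw [stdHom_apply, coe_heckeBetaBar, stdHom_apply, order_qExpand]) hj0 hj
  obtain ⟨hb', eb'⟩ := IsCusp.restrictAlong (φ := stdHom p) (heckeBetaBar Qbar p l)
    (Hecke.betaIntegral Qbar p l) hu' one_pos (fun f _ => by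
      rw [hβ, stdHom_apply, Nat.cast_one, one_mul]) hj0 hj
  obtain ⟨ha, -⟩ := IsCusp.restrictAlong (φ := stdHom p) (heckeAlphaBar Qbar p l)
    (Hecke.alphaIntegral Qbar p l) hu one_pos (fun f _ => by
      rw [stdHom_apply, coe_heckeAlphaBar, stdHom_apply, Nat.cast_one, one_mul]) hj0 hj
  obtain ⟨ha', -⟩ := IsCusp.restrictAlong (φ := stdHom p) (heckeAlphaBar Qbar p l)
    (Hecke.alphaIntegral Qbar p l) hu' hl.out.pos (fun f _ => by
      rw [hα, stdHom_apply, order_qExpand]) hj0 hj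
  have hne : u ≠ u' := fun h => by
    rw [h, eb'] at eb
    exact hl.out.ne_one eb.symm
  have hO' : IsCusp (stdHom p) O := isInfty_iff_isCusp.mp hO
  rw [corr, correspondence_single_eq _ _ _ _ {u, u'} (fun W hW => by
      rcases Finset.mem_insert.mp hW with rfl | hW
      · exact hb.unique hO'
      · rw [Finset.mem_singleton.mp hW]; exact hb'.unique hO')
    (by rw [Finset.sum_pair hne, eb, eb', finrankAlong_beta p l hlp])]
  rw [Finset.sum_pair hne, eb, eb', ha.unique hO', ha'.unique hO', ← Finsupp.single_add]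
  rfl

variable {Ω : Type*} [NormedField Ω] [IsUltrametricDist Ω] [CompleteSpace Ω] [CharZero Ω]
  [IsAlgClosed Ω] {ι : Qbar →+* Ω} {s : DiscPt Ω}

/-- `T_l P_s = Σ_{r^l = s} P_r + P_{s^l}`. -/
theorem corr_point (hlp : ¬ l ∣ p) (hs : s.val ≠ 0) {v : XPlace p}
    (hv : IsPoint ι (stdHom p) s v) :
    ∃ (R : Finset (DiscPt Ω)) (P : R → XPlace p) (v' : XPlace p),
      R.card = l ∧ (∀ r : DiscPt Ω, r ∈ R ↔ r.val ^ l = s.val) ∧
      (∀ r : R, IsPoint ι (stdHom p) r.1 (P r)) ∧ IsPoint ι (stdHom p) (s.powPt l) v' ∧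
      corr p l (Finsupp.single v 1) =
        (∑ r : R, Finsupp.single (P r) (1 : ℤ)) + Finsupp.single v' 1 := by
  classical
  obtain ⟨τ, hC, hα, hβ⟩ := exists_swapHom (N := p) (l := l) Qbar
    (IsAlgClosed.lift : Qbar →ₐ[ℚ] ℂ).toRingHom hlp
  obtain ⟨a, ha, hord⟩ := hv.exists_value ι (adm_stdHom ι) hs (stdHom_jBar (p := p))
  rw [isPoint_powPt_one] at ha
  obtain ⟨R, hRc, hR⟩ := exists_root_finset hs l
  have hr0 : ∀ r : R, r.1.val ≠ 0 := fun r h =>
    hs (by rw [← (hR r.1).mp r.2, h, zero_pow hl.out.ne_zero])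
  have hrl : ∀ r : R, r.1.powPt l = s := fun r => by
    have h := (hR r.1).mp r.2
    cases s
    simp only [DiscPt.powPt, DiscPt.mk.injEq]
    exact h
  have hadm := adm_swap ι hC hα hβ
  have hβstd : stdHom (p * l) (heckeBetaBar Qbar p l (jBar p)) =
      qExpand Qbar l (coeffEmb Qbar jq) := by rw [stdHom_apply, coe_heckeBetaBar]; rfl
  have hαstd : stdHom (p * l) (heckeAlphaBar Qbar p l (jBar p)) =
      qExpand Qbar 1 (coeffEmb Qbar jq) := by
    rw [stdHom_apply, coe_heckeAlphaBar, qExpand_one_apply]; rfl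
  have hβτ : τ (heckeBetaBar Qbar p l (jBar p)) = qExpand Qbar 1 (coeffEmb Qbar jq) := by
    rw [hβ, qExpand_one_apply]; rfl
  have hατ : τ (heckeAlphaBar Qbar p l (jBar p)) = qExpand Qbar l (coeffEmb Qbar jq) := by
    rw [hα]; rfl
  choose Q hQ using fun r : R => exists_isPoint_of_value ι (adm_stdHom ι) (hr0 r) hβstd
    (show ι a * (r.1.powPt l).J = 1 by rw [hrl r]; exact ha)
  obtain ⟨Q', hQ'⟩ := exists_isPoint_of_value ι hadm hs hβτ
    (show ι a * (s.powPt 1).J = 1 by rw [isPoint_powPt_one]; exact ha)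
  -- values of `j` through `α`
  have hval : ∀ r : R, ∃ b, ι b * r.1.J = 1 ∧
      (Q r).ord (heckeAlphaBar Qbar p l (jBar p) - algebraMap Qbar _ b) = 1 := fun r => by
    obtain ⟨b, hb, hb1⟩ := (hQ r).exists_value ι (adm_stdHom ι) (hr0 r) hαstd
    rw [isPoint_powPt_one] at hb
    exact ⟨b, hb, hb1⟩
  obtain ⟨b', hb', hb'1⟩ := hQ'.exists_value ι hadm hs hατ
  -- restrictions
  have hsl : (s.powPt l).val ≠ 0 := pow_ne_zero l hs
  have hsa : ι a * (s.powPt 1).J = 1 := by rw [isPoint_powPt_one]; exact ha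
  obtain ⟨hj0, hj1⟩ := ordAt_sub_const ι (adm_stdHom ι) hs (stdHom_jBar (p := p)) hsa
  have hQβ : ∀ r : R,
      (Q r).restrictAlong (heckeBetaBar Qbar p l) (Hecke.betaIntegral Qbar p l) = v ∧
      (Q r).ramificationIndexAlong (heckeBetaBar Qbar p l) = 1 := fun r => by
    obtain ⟨h1, h2⟩ := IsPoint.restrictAlong ι (s := s) (φ := stdHom p) (heckeBetaBar Qbar p l)
      (Hecke.betaIntegral Qbar p l) (hQ r) (fun f hf => by
        rw [ser_apply, stdHom_apply, coe_heckeBetaBar, coeffMap_qExpand,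
          show coeffMap ι (f : LaurentSeries Qbar) = ser ι (stdHom p) f from rfl,
          r.1.ordAt_qExpand (hr0 r) l (natCast_omega_ne_zero l) ((adm_stdHom ι).mem f)
            (ser_ne_zero ι _ hf), hrl r]) hj0 hj1
    exact ⟨h1.unique ι hv, h2⟩
  obtain ⟨hQ'β, eQ'⟩ := IsPoint.restrictAlong ι (s := s) (φ := stdHom p) (heckeBetaBar Qbar p l)
    (Hecke.betaIntegral Qbar p l) hQ' (fun f _ => by
      rw [ser_apply, hβ]; rfl) hj0 hj1
  have hQα : ∀ r : R, IsPoint ι (stdHom p) r.1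
      ((Q r).restrictAlong (heckeAlphaBar Qbar p l) (Hecke.alphaIntegral Qbar p l)) := fun r => by
    obtain ⟨b, hb, -⟩ := hval r
    obtain ⟨h0, h1⟩ := ordAt_sub_const ι (adm_stdHom ι) (hr0 r) (stdHom_jBar (p := p))
      (show ι b * (r.1.powPt 1).J = 1 by rw [isPoint_powPt_one]; exact hb)
    exact (IsPoint.restrictAlong ι (heckeAlphaBar Qbar p l)
      (Hecke.alphaIntegral Qbar p l) (hQ r) (fun f _ => by
        rw [ser_apply, stdHom_apply, coe_heckeAlphaBar]; rfl) h0 h1).1
  have hQ'α : IsPoint ι (stdHom p) (s.powPt l)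
      (Q'.restrictAlong (heckeAlphaBar Qbar p l) (Hecke.alphaIntegral Qbar p l)) := by
    obtain ⟨h0, h1⟩ := ordAt_sub_const ι (adm_stdHom ι) hsl (stdHom_jBar (p := p))
      (show ι b' * ((s.powPt l).powPt 1).J = 1 by rw [isPoint_powPt_one]; exact hb')
    exact (IsPoint.restrictAlong ι (heckeAlphaBar Qbar p l)
      (Hecke.alphaIntegral Qbar p l) hQ' (fun f hf => by
        rw [ser_apply, hα, coeffMap_qExpand,
          show coeffMap ι (f : LaurentSeries Qbar) = ser ι (stdHom p) f from rfl,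
          s.ordAt_qExpand hs l (natCast_omega_ne_zero l) ((adm_stdHom ι).mem f)
            (ser_ne_zero ι _ hf)]) h0 h1).1
  -- distinctness
  have hinj : Function.Injective Q := fun r r' h => by
    obtain ⟨b, hb, hb1⟩ := hval r
    obtain ⟨b₂, hb2, hb21⟩ := hval r'
    rw [h] at hb1
    have hbb : b = b₂ := FF.const_unique (Q r') (Or.inr (hb1 ▸ one_pos)) (Or.inr (hb21 ▸ one_pos))
    rw [hbb] at hb
    have hne : ι b₂ ≠ 0 := left_ne_zero_of_mul_eq_one hb
    have := DiscPt.J_injective (mul_left_cancel₀ hne (hb.trans hb2.symm))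
    refine Subtype.ext ?_
    cases hr : r.1
    cases hr' : r'.1
    rw [hr, hr'] at this
    simp only [DiscPt.mk.injEq]
    exact this
  have hne : ∀ r : R, Q r ≠ Q' := fun r h => by
    obtain ⟨b, hb, hb1⟩ := hval r
    rw [h] at hb1
    have hbb : b = b' := FF.const_unique Q' (Or.inr (hb1 ▸ one_pos)) (Or.inr (hb'1 ▸ one_pos))
    rw [hbb] at hb
    have hne : ι b' ≠ 0 := left_ne_zero_of_mul_eq_one hb
    have h1 : r.1.val = s.val ^ l :=
      DiscPt.J_injective (s := r.1) (t := s.powPt l) (mul_left_cancel₀ hne (hb.trans hb'.symm))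
    have h2 : ‖r.1.val‖ = ‖r.1.val‖ ^ (l * l) := by
      conv_lhs => rw [h1, ← (hR r.1).mp r.2, ← pow_mul, norm_pow]
    have h3 : ‖r.1.val‖ ^ (l * l) < ‖r.1.val‖ ^ 1 :=
      pow_lt_pow_right_of_lt_one₀ (norm_pos_iff.mpr (hr0 r)) r.1.norm_lt
        (by nlinarith [hl.out.two_le])
    rw [pow_one, ← h2] at h3
    exact lt_irrefl _ h3
  refine ⟨R, fun r => (Q r).restrictAlong (heckeAlphaBar Qbar p l) (Hecke.alphaIntegral Qbar p l),
    Q'.restrictAlong (heckeAlphaBar Qbar p l) (Hecke.alphaIntegral Qbar p l), hRc, hR, hQα, hQ'α,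
    ?_⟩
  have hnm : Q' ∉ Finset.univ.image Q := by simpa using hne
  rw [corr, correspondence_single_eq _ _ _ _ (insert Q' (Finset.univ.image Q)) (fun W hW => by
      rcases Finset.mem_insert.mp hW with rfl | hW
      · exact hQ'β.unique ι hv
      · obtain ⟨r, -, rfl⟩ := Finset.mem_image.mp hW
        exact (hQβ r).1)
    (by
      rw [Finset.sum_insert hnm, Finset.sum_image hinj.injOn, eQ', finrankAlong_beta p l hlp]
      simp [(hQβ _).2, hRc, add_comm])]
  rw [Finset.sum_insert hnm, Finset.sum_image hinj.injOn, eQ', add_comm]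
  simp [(hQβ _).2]

end Fermat.Agent.Mazur.Disc
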