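import Mathlib.NumberTheory.Padics.Complex
import Fermat.Prelude.Def_FLTPrelim_Ramification
import Fermat.Agent.Gal.Basic

/-!
# Embeddings of `ℚ̄` into `ℂ_ℓ` attached to places over `ℓ`
-/

noncomputable section

open scoped Pointwise

namespace Fermat.Agent.Mazur.Disc

local notation "Qbar" => AlgebraicClosure ℚ

/-- The valuation ring pulled back along an embedding into a nonarchimedean field. -/
def pullBall {Ω : Type*} [NormedField Ω] [IsUltrametricDist Ω] (ι : Qbar →+* Ω) :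
    ValuationSubring Qbar where
  carrier := {x | ‖ι x‖ ≤ 1}
  mul_mem' {x y} hx hy := by simpa [norm_mul] using mul_le_one₀ hx (norm_nonneg (ι y)) hy
  one_mem' := by simp
  add_mem' {x y} hx hy := by
    simpa using le_trans (IsUltrametricDist.norm_add_le_max (ι x) (ι y)) (max_le hx hy)
  zero_mem' := by simp
  neg_mem' {x} hx := by simpa using hx
  mem_or_inv_mem' x := by
    rcases le_or_gt ‖ι x‖ 1 with h | h
    · exact Or.inl h
    · refine Or.inr ?_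
      show ‖ι x⁻¹‖ ≤ 1
      rw [map_inv₀, norm_inv]
      exact inv_le_one_of_one_le₀ h.le

/-- If `|ℓ| < 1` in `Ω`, the ring pulled back from its unit ball lies over `ℓ`. -/
theorem liesOverPrime_pullBall {Ω : Type*} [NormedField Ω] [IsUltrametricDist Ω]
    (ι : Qbar →+* Ω) {ℓ : ℕ} (hℓ : ‖(ℓ : Ω)‖ < 1) :
    (pullBall ι).LiesOverPrime ℓ := by
  show (ℓ : Qbar) ∈ (pullBall ι).nonunits
  rw [ValuationSubring.mem_nonunits_iff_exists_mem_maximalIdeal]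
  refine ⟨show ‖ι ℓ‖ ≤ 1 by rw [map_natCast]; exact hℓ.le, ?_⟩
  rw [IsLocalRing.mem_maximalIdeal, mem_nonunits_iff]
  intro hu
  obtain ⟨b, hb⟩ := hu.exists_right_inv
  have h1 : ι ((ℓ : Qbar) * (b : Qbar)) = 1 := by
    rw [show (ℓ : Qbar) * (b : Qbar) = 1 from congrArg Subtype.val hb, map_one]
  rw [map_mul, map_natCast] at h1
  have h2 := congrArg norm h1
  rw [norm_mul, norm_one] at h2
  have hb1 : ‖ι (b : Qbar)‖ ≤ 1 := b.2
  nlinarith [norm_nonneg (ι (b : Qbar)), norm_nonneg (ℓ : Ω)]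

variable (ℓ : ℕ) [Fact ℓ.Prime]

theorem norm_natCast_self : ‖(ℓ : ℂ_[ℓ])‖ = (ℓ : ℝ)⁻¹ := by
  rw [← map_natCast (algebraMap ℚ_[ℓ] ℂ_[ℓ]) ℓ, norm_algebraMap', Padic.norm_p]

theorem norm_natCast_self_lt_one : ‖(ℓ : ℂ_[ℓ])‖ < 1 := by
  rw [norm_natCast_self]
  exact inv_lt_one_of_one_lt₀ (by exact_mod_cast (Fact.out : ℓ.Prime).one_lt)

/-- A place over `ℓ` comes from an embedding into `ℂ_ℓ`. -/
theorem exists_embedding {A : ValuationSubring Qbar} (hA : A.LiesOverPrime ℓ) :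
    ∃ ι : Qbar →+* ℂ_[ℓ], ∀ x, x ∈ A ↔ ‖ι x‖ ≤ 1 := by
  let ι₀ : Qbar →+* ℂ_[ℓ] := (IsAlgClosed.lift : Qbar →ₐ[ℚ] ℂ_[ℓ]).toRingHom
  have h₀ := liesOverPrime_pullBall ι₀ (norm_natCast_self_lt_one ℓ)
  obtain ⟨σ, hσ⟩ := Gal.exists_smul_eq Fact.out h₀ hA
  refine ⟨ι₀.comp (σ.symm : Qbar →+* Qbar), fun x => ?_⟩
  rw [← hσ, ValuationSubring.mem_pointwise_smul_iff_inv_smul_mem]
  rfl

theorem exists_liesOverPrime : ∃ A : ValuationSubring Qbar, A.LiesOverPrime ℓ :=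
  ⟨pullBall (IsAlgClosed.lift : Qbar →ₐ[ℚ] ℂ_[ℓ]).toRingHom,
    liesOverPrime_pullBall _ (norm_natCast_self_lt_one ℓ)⟩

end Fermat.Agent.Mazur.Disc
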