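import Fermat.Agent.Mazur.Disc.Fibre
import Fermat.Agent.Mazur.Disc.Padic
import Fermat.Agent.Red.ChartFinite
import Fermat.Agent.Red.Lattice

/-!
# Disc points reduce to the cusp `∞`

With `u = Δ(τ)/Δ(pτ)` and `c = u(P_s)` one has `|c| > 1`, so `1 - u/c` reduces to `1`; its divisor
is `div₀ - (p - 1)∞` with `P_s` a zero, hence `P_s` and `∞` have the same reduction.
-/

noncomputable section

open ModularCurve AlgebraicCurve

namespace Fermat.Agent.Mazur.Disc

local notation "Qbar" => AlgebraicClosure ℚ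

variable {p : ℕ} [hp : Fact p.Prime]

/-- The properties of `u = Δ(τ)/Δ(pτ)` that are used. -/
structure IsDeltaUnit (τ : modularFunctionFieldBar p →+* LaurentSeries Qbar)
    (u : modularFunctionFieldBar p) (D : PowerSeries ℤ) : Prop where
  constant : D.constantCoeff = 1
  series : (u : LaurentSeries Qbar) = HahnSeries.single (1 - (p : ℤ)) (1 : Qbar) *
    HahnSeries.ofPowerSeries ℤ Qbar (D.map (Int.castRingHom Qbar))
  fricke : τ u * (u : LaurentSeries Qbar) = HahnSeries.C ((p : Qbar) ^ 12)
  integral : IsIntegral (Algebra.adjoin Qbar {jBar p}) u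

/-- An element integral over `ℚ̄[j]` is regular where `j` is. -/
theorem ord_nonneg_of_integral {v : XPlace p} {f : modularFunctionFieldBar p}
    (hf : IsIntegral (Algebra.adjoin Qbar {jBar p}) f) (hj : 0 ≤ v.ord (jBar p)) : 0 ≤ v.ord f := by
  refine (FF.mem_iff_ord_nonneg v).mp
    (Red.mem_place_of_isIntegral v (RingHom.id (modularFunctionFieldBar p)) (fun r => ?_) hf)
  obtain ⟨r, hr⟩ := r
  show r ∈ v.toValuationSubring
  induction hr using Algebra.adjoin_induction with
  | mem x hx =>
    obtain rfl : x = jBar p := hx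
    exact (FF.mem_iff_ord_nonneg v).mpr hj
  | algebraMap c => exact v.algebraMap_mem' c
  | add a b _ _ ha hb => exact add_mem ha hb
  | mul a b _ _ ha hb => exact mul_mem ha hb

variable {τ : modularFunctionFieldBar p →+* LaurentSeries Qbar}
  {u : modularFunctionFieldBar p} {D : PowerSeries ℤ}

theorem IsDeltaUnit.order_eq (hu : IsDeltaUnit τ u D) :
    (u : LaurentSeries Qbar).order = 1 - (p : ℤ) := by
  have h0 : (D.map (Int.castRingHom Qbar)).constantCoeff = 1 := by
    rw [← PowerSeries.coeff_zero_eq_constantCoeff, PowerSeries.coeff_map,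
      PowerSeries.coeff_zero_eq_constantCoeff, hu.constant, map_one]
  refine le_antisymm (HahnSeries.order_le_of_coeff_ne_zero ?_) ?_
  · rw [hu.series, HahnSeries.coeff_single_mul, sub_self,
      show (0 : ℤ) = ((0 : ℕ) : ℤ) from rfl, HahnSeries.ofPowerSeries_apply_coeff,
      PowerSeries.coeff_zero_eq_constantCoeff, h0, one_mul]
    exact one_ne_zero
  · by_contra hlt
    rw [not_le] at hlt
    have hne : (u : LaurentSeries Qbar) ≠ 0 := by
      rw [hu.series]
      refine mul_ne_zero (HahnSeries.single_ne_zero one_ne_zero) fun h => ?_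
      rw [map_eq_zero_iff _ HahnSeries.ofPowerSeries_injective] at h
      rw [h, map_zero] at h0
      exact zero_ne_one h0
    refine hne (HahnSeries.coeff_order_eq_zero.mp ?_)
    rw [hu.series, HahnSeries.coeff_single_mul] at *
    rw [ofPowerSeries_coeff_of_neg _ (by omega), mul_zero]

theorem IsDeltaUnit.ne_zero (hu : IsDeltaUnit τ u D) : u ≠ 0 := fun h => by
  have := hu.order_eq
  rw [h] at this
  simp at this
  have := hp.out.two_le
  omega

/-- `u` has a pole only at `∞`. -/
theorem IsDeltaUnit.ord_nonneg (hu : IsDeltaUnit τ u D) (hτ : IsFricke τ) {O : XPlace p}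
    (hO : IsInfty p O) {v : XPlace p} (hv : v ≠ O) : 0 ≤ v.ord u := by
  by_cases hj : 0 ≤ v.ord (jBar p)
  · exact ord_nonneg_of_integral hu.integral hj
  rcases isCusp_of_ord_jBar_neg hτ (not_le.mp hj) with h | h
  · exact absurd (h.unique (isInfty_iff_isCusp.mp hO)) hv
  · have hne := hu.ne_zero
    have h1 := congrArg HahnSeries.order hu.fricke
    rw [HahnSeries.order_mul ((map_ne_zero τ).mpr hne)
      (fun h0 => hne (Subtype.ext h0)), hu.order_eq, HahnSeries.C_apply,
      HahnSeries.order_single (pow_ne_zero 12 (Nat.cast_ne_zero.mpr hp.out.ne_zero))] at h1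
    rw [h u hne]
    have := hp.out.two_le
    omega

variable {Ω : Type*} [NormedField Ω] [IsUltrametricDist Ω] [CompleteSpace Ω] [CharZero Ω]
  {ι : Qbar →+* Ω} {s : DiscPt Ω}

omit [CharZero Ω] in
/-- `|u(P_s)| = |s|^(1 - p) > 1`. -/
theorem IsDeltaUnit.exists_value (hu : IsDeltaUnit τ u D) (hs : s.val ≠ 0) {v : XPlace p}
    (hv : IsPoint ι (stdHom p) s v) :
    ∃ c : Qbar, 1 < ‖ι c‖ ∧ 0 < v.ord (u - algebraMap Qbar _ c) := by
  have hj0 : v.ord (jBar p) = 0 := by
    rw [hv _ (jBar_ne_zero p), ser_apply,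
      stdHom_apply]
    show s.ordAt (coeffMap ι (coeffEmb Qbar jq)) = 0
    rw [coeffMap_coeffEmb_jq, s.ordAt_jqModC hs]
  have hreg : 0 ≤ v.ord u := ord_nonneg_of_integral hu.integral hj0.ge
  obtain ⟨c, hc⟩ := FF.exists_const v hreg
  have hne : u - algebraMap Qbar _ c ≠ 0 := fun h => by
    have h1 := hu.order_eq
    rw [sub_eq_zero.mp h, IntermediateField.coe_algebraMap_apply,
      algebraMap_laurentSeries_eq_single] at h1
    have := hp.out.two_le
    rcases eq_or_ne c 0 with rfl | h0
    · simp at h1; omega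
    · rw [HahnSeries.order_single h0] at h1; omega
  refine ⟨c, ?_, hc.resolve_left hne⟩
  by_contra hle
  rw [not_lt] at hle
  have h1 := hc.resolve_left hne
  rw [hv _ hne] at h1
  obtain ⟨m, hm⟩ := Nat.exists_eq_add_of_le hp.out.one_le
  set G : PowerSeries (Disc.O Ω) := D.map (Int.castRingHom (Disc.O Ω)) with hG
  set c' : Disc.O Ω := ⟨ι c, hle⟩ with hc'
  have hser : ser ι (stdHom p) (u - algebraMap Qbar _ c) * toL (PowerSeries.X ^ m) =
      toL (G - PowerSeries.C c' * PowerSeries.X ^ m) := by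
    rw [map_sub, ser_const ι (adm_stdHom ι), ser_apply, stdHom_apply, hu.series, map_mul,
      coeffMap_single, map_one, coeffMap_ofPowerSeries, toL_apply, map_pow, PowerSeries.map_X,
      map_pow, HahnSeries.ofPowerSeries_X, HahnSeries.single_pow, sub_mul, one_pow,
      toL_apply, map_sub, map_sub, map_mul, map_mul, map_pow, PowerSeries.map_X, map_pow,
      HahnSeries.ofPowerSeries_X, HahnSeries.single_pow, one_pow, PowerSeries.map_C,
      HahnSeries.ofPowerSeries_C]
    congr 1
    · rw [mul_right_comm, HahnSeries.single_mul_single, one_mul, hG]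
      have e1 : (1 - (p : ℤ)) + m • (1 : ℤ) = 0 := by simp [hm]
      rw [e1, HahnSeries.single_zero_one, one_mul]
      congr 1
      ext n
      simp
  have hev : s.eval (G - PowerSeries.C c' * PowerSeries.X ^ m) ≠ 0 := by
    intro h0
    have hG1 : ‖((s.eval G : Disc.O Ω) : Ω)‖ = 1 := s.norm_eval_of_unit (by
      rw [hG, ← PowerSeries.coeff_zero_eq_constantCoeff, PowerSeries.coeff_map,
        PowerSeries.coeff_zero_eq_constantCoeff, hu.constant, map_one]
      exact isUnit_one)
    rw [map_sub, sub_eq_zero, map_mul, map_pow, s.eval_C, s.eval_X] at h0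
    rw [h0, Subring.coe_mul, SubmonoidClass.coe_pow, norm_mul, norm_pow, s.coe_toO] at hG1
    have hm1 : m ≠ 0 := fun h => by have := hp.out.two_le; omega
    have h2 : ‖s.val‖ ^ m < 1 := pow_lt_one₀ (norm_nonneg _) s.norm_lt hm1
    have h3 : ‖(c' : Ω)‖ ≤ 1 := hle
    nlinarith [norm_nonneg (c' : Ω), pow_nonneg (norm_nonneg s.val) m]
  have hXm : s.eval (PowerSeries.X ^ m : PowerSeries (Disc.O Ω)) ≠ 0 := by
    rw [map_pow, s.eval_X]
    exact pow_ne_zero _ fun h => hs (congrArg Subtype.val h)
  rw [s.ordAt_eq (ser_ne_zero ι _ hne) (fun h => hXm (by rw [h, map_zero])) hser,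
    s.ordNat_of_eval_ne_zero hev, s.ordNat_of_eval_ne_zero hXm] at h1
  simp at h1

omit [CharZero Ω] in
/-- Points of the disc reduce to `∞`. -/
theorem placeReduction_point (hu : IsDeltaUnit τ u D) (hτ : IsFricke τ)
    {A : ValuationSubring Qbar} (hA : ∀ x, x ∈ A ↔ ‖ι x‖ ≤ 1) (h : ReductionInputsModL A p)
    {O : XPlace p} (hO : IsInfty p O) (hs : s.val ≠ 0) {v : XPlace p}
    (hv : IsPoint ι (stdHom p) s v) : placeReductionModL h v = placeReductionModL h O := by
  classical
  obtain ⟨c, hc1, hcv⟩ := hu.exists_value hs hv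
  have hιc : ι c ≠ 0 := fun h0 => by rw [h0, norm_zero] at hc1; linarith
  have hc0 : c ≠ 0 := fun h0 => hιc (by rw [h0, map_zero])
  have hciA : c⁻¹ ∈ A := (hA _).mpr (by
    rw [map_inv₀, norm_inv]; exact inv_le_one_of_one_le₀ hc1.le)
  have hres : IsLocalRing.residue A ⟨c⁻¹, hciA⟩ = 0 := by
    rw [IsLocalRing.residue_eq_zero_iff, IsLocalRing.mem_maximalIdeal, mem_nonunits_iff]
    intro hu'
    obtain ⟨b, hb⟩ := hu'.exists_right_inv
    have hb' : c⁻¹ * (b : Qbar) = 1 := congrArg Subtype.val hb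
    have hb1 : ‖ι (b : Qbar)‖ ≤ 1 := (hA _).mp b.2
    have hb2 : (b : Qbar) = c := by field_simp at hb'; exact hb'
    rw [hb2] at hb1
    linarith
  set ψ : modularFunctionFieldBar p := 1 - algebraMap Qbar _ c⁻¹ * u with hψ
  have hψu : ψ = -(algebraMap Qbar _ c⁻¹) * (u - algebraMap Qbar _ c) := by
    rw [hψ, mul_sub, neg_mul, neg_mul, ← map_mul, inv_mul_cancel₀ hc0, map_one]
    ring
  let y : LaurentSeries A := 1 - HahnSeries.single (1 - (p : ℤ)) (⟨c⁻¹, hciA⟩ : A) *
    HahnSeries.ofPowerSeries ℤ A (D.map (Int.castRingHom A))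
  have hy : coeffMap A.subtype y = (ψ : LaurentSeries Qbar) := by
    show coeffMap A.subtype y = (1 : LaurentSeries Qbar) -
      algebraMap Qbar (LaurentSeries Qbar) c⁻¹ * (u : LaurentSeries Qbar)
    rw [map_sub, map_one, map_mul, coeffMap_single, coeffMap_ofPowerSeries, hu.series,
      algebraMap_laurentSeries_eq_single, ← mul_assoc, HahnSeries.single_mul_single, zero_add,
      mul_one]
    congr 3
  have hy' : coeffMap (IsLocalRing.residue A) y = 1 := by
    rw [map_sub, map_one, map_mul, coeffMap_single, hres, map_zero, zero_mul, sub_zero]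
  have hyF : coeffMap A.subtype y ∈ laurentBaseChange Qbar (modularFunctionFieldFull p) := by
    rw [hy]; exact ψ.2
  have hψ0 : ψ ≠ 0 := fun h0 => by
    have h2 : y = 0 := Red.coeffMap_subtype_injective A (by rw [hy, h0, map_zero]; rfl)
    rw [h2, map_zero] at hy'
    exact zero_ne_one hy'
  set E : Divisor Qbar (modularFunctionFieldBar p) := FF.divOf ψ with hE
  have hspec := (isPlaceReductionModL_placeReductionModL h).2 y hyF
    (by rw [hy']; exact one_mem _) (by rw [hy']; exact one_ne_zero) E (fun P => by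
      rw [hE, FF.divOf_apply]; congr 1; exact Subtype.ext hy.symm)
  have hQ0 : Finsupp.mapDomain (placeReductionModL h) E (placeReductionModL h v) = 0 := by
    rw [hspec]
    rw [show (⟨coeffMap (IsLocalRing.residue A) y, _⟩ :
        modularFunctionFieldFullC (IsLocalRing.ResidueField A) p) = 1 from Subtype.ext hy']
    exact Place.ord_one _
  by_contra hne
  have hnonneg : ∀ w, placeReductionModL h w = placeReductionModL h v → 0 ≤ E w := by
    intro w hw
    have hwO : w ≠ O := fun h0 => hne (by rw [← hw, h0])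
    rw [hE, FF.divOf_apply]
    have h1 := hu.ord_nonneg hτ hO hwO
    refine (FF.mem_iff_ord_nonneg w).mp ?_
    exact sub_mem (one_mem _)
      (mul_mem (w.algebraMap_mem' _) ((FF.mem_iff_ord_nonneg w).mpr h1))
  have hv1 : 0 < E v := by
    rw [hE, FF.divOf_apply, hψu, v.ord_mul (neg_ne_zero.mpr
      ((map_ne_zero _).mpr (inv_ne_zero hc0))) (fun h0 => by rw [h0] at hcv; simp at hcv),
      FF.ord_neg, FF.ord_algebraMap, zero_add]
    exact hcv
  have := Red.apply_le_mapDomain (placeReductionModL h) E v hnonneg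
  omega

end Fermat.Agent.Mazur.Disc
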